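/-
Programme MZ (S15), chapter ORDL, file ExtGen6 (helper6): **the approximate Hopf generating set of
an "extension setting"** — the generalisation of `FF/INST/Gen0` + `FF/INST/Comul0` from a finite
`Γ`-stable subgroup `M ⊂ Pic0` to a finite abelian group `E` with a `Γ`-action and a
(non additive) `Γ`-equivariant map `pt : E → Pic0` whose additivity defect `κ` is `Γ`-fixed and only
depends on the classes `cl e`, `cl e'`.  (For the Kummer extension
`E = ZMod n × J[n]`, `pt (a, t) = t + a • y`, the defect is `0` or `z = n • y`.)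

* `ExtSetting S Γ E C` : the data;
* `tauV`, `tau`, `ind`, `gens`; `gens_finite`, `gens_int`, `gens_eqv`, `gens_sep`;
* `approxComul_ind`, `approxComul_tau`;
* **`approxGen`** : `ApproxGen W D.A.toSubring Z.act Z.gens` from `Comul0.FGOut S W`.
-/
import Mathlib
import Fermat.Agent.FF.INST.Comul0

set_option autoImplicit false
set_option linter.unusedSectionVars false
set_option linter.style.longLine false
set_option linter.style.haveILetI false

namespace Fermat.Agent.MZ.ORDL.ExtGen6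

open AlgebraicCurve Fermat.Agent.X0.FF Fermat.Agent.RR.LSpace Fermat.Agent.MW.EMB.Value6
open Fermat.Agent.FF.RED.RedDatum7 Fermat.Agent.FF.RED.Disc7 Fermat.Agent.FF.KER.Ker0
open Fermat.Agent.FF.KER.KerGal0 Fermat.Agent.FF.INST.Gen0 Fermat.Agent.FF.INST.Comul0
open Fermat.Agent.FF.BASE.ApproxGen2

noncomputable section

variable {L F : Type} {k Ft : Type} [Field L] [Field F] [Algebra L F] [Field k] [Field Ft]
  [Algebra k Ft]
variable {D : RedDatum L F k Ft} {g : ℕ}

/-- **An extension setting**: a finite abelian group `E` with an action of `Γ`, a `Γ`-equivariant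
map `pt : E → Pic0` which is additive up to a `Γ`-fixed defect `κ` depending only on the classes. -/
structure ExtSetting (S : NSSystem D g) (Γ : Type) [Group Γ] [MulSemiringAction Γ L]
    (E C : Type) [AddCommGroup E] where
  hRR : ∀ E' : Divisor L F, Divisor.degree E' = g → ∃ f : F, f ≠ 0 ∧ ∀ P, -(E' P) ≤ P.ord f
  ρ : Γ →* SemilinearAut L F
  base : ∀ (γ : Γ) (a : L), SemilinearAut.baseAut (ρ γ) a = γ • a
  triv : ∀ (γ : Γ) (P : Place L F), D.r (ρ γ • P) = D.r P
  fixes : ∀ γ : Γ, Fixes S (ρ γ)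
  y : Pic0 k Ft → Pic0 L F
  red_y : ∀ x : Pic0 L F, redPic D (y (redPic D x)) = redPic D x
  fix_y : ∀ (γ : Γ) (x : Pic0 L F), ρ γ • y (redPic D x) = y (redPic D x)
  act : Γ → E → E
  pt : E → Pic0 L F
  pt_act : ∀ γ e, pt (act γ e) = ρ γ • pt e
  cl : E → C
  cl_act : ∀ γ e, cl (act γ e) = cl e
  cadd : C → C → C
  cl_add : ∀ e e', cl (e + e') = cadd (cl e) (cl e')
  inj : ∀ e e', cl e = cl e' → pt e = pt e' → e = e'
  red_pt : ∀ e e', cl e = cl e' → redPic D (pt e) = redPic D (pt e')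
  κ : C → C → Pic0 L F
  pt_add : ∀ e e', pt (e + e') = pt e + pt e' - κ (cl e) (cl e')
  κ_fix : ∀ γ c c', ρ γ • κ c c' = κ c c'

variable {S : NSSystem D g} {Γ : Type} [Group Γ] [MulSemiringAction Γ L]
  {E C : Type} [AddCommGroup E] [Finite E] (Z : ExtSetting S Γ E C)

namespace ExtSetting

theorem discCompat (γ : Γ) : DiscCompat D (Z.ρ γ) := fun P P' h => by
  rw [Z.triv γ P, Z.triv γ P', h]

/-- the reduction class of `pt e`. -/
def rd (e : E) : Pic0 k Ft := redPic D (Z.pt e)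

theorem rd_act (γ : Γ) (e : E) : Z.rd (Z.act γ e) = Z.rd e := by
  unfold rd
  rw [Z.pt_act]
  exact redPic_smul (Z.triv γ) _

theorem rd_congr {e e' : E} (h : Z.cl e = Z.cl e') : Z.rd e = Z.rd e' := Z.red_pt e e' h

theorem red_y' (e : E) : redPic D (Z.y (Z.rd e)) = Z.rd e := Z.red_y (Z.pt e)

theorem fix_y' (γ : Γ) (e : E) : Z.ρ γ • Z.y (Z.rd e) = Z.y (Z.rd e) := Z.fix_y γ (Z.pt e)

theorem sub_lift_mem_ker (e : E) : Z.pt e - Z.y (Z.rd e) ∈ (redPic D).ker := by
  rw [AddMonoidHom.mem_ker, map_sub, Z.red_y' e]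
  exact sub_self _

/-- the coordinates `τ(e) = T(pt e − y(red pt e)) ∈ m_A^g`. -/
def tauV (e : E) : Fin g → mA D :=
  (S.kerEquiv Z.hRR).symm ⟨Z.pt e - Z.y (Z.rd e), Z.sub_lift_mem_ker e⟩

theorem kap_tauV (e : E) : S.kap (Z.tauV e) = Z.pt e - Z.y (Z.rd e) := by
  have h := (S.kerEquiv Z.hRR).apply_symm_apply ⟨Z.pt e - Z.y (Z.rd e), Z.sub_lift_mem_ker e⟩
  exact congrArg Subtype.val h

theorem tauV_eq_of_kap {e : E} {T : Fin g → mA D}
    (h : S.kap T = Z.pt e - Z.y (Z.rd e)) : Z.tauV e = T :=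
  S.kap_injective (by rw [Z.kap_tauV, h])

/-- the coordinate functions `τ_i : E → L`. -/
def tau (i : Fin g) (e : E) : L := ((Z.tauV e i : D.A) : L)

/-- the indicator functions `e_c : E → L`. -/
def ind (c : C) (e : E) : L := by
  classical
  exact if Z.cl e = c then 1 else 0

theorem ind_apply (c : C) (e : E) [Decidable (Z.cl e = c)] :
    Z.ind c e = if Z.cl e = c then 1 else 0 := by
  unfold ind
  congr

theorem ind_self (e : E) : Z.ind (Z.cl e) e = 1 := by
  classical
  rw [ind_apply, if_pos rfl]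

theorem ind_of_ne {c : C} {e : E} (h : Z.cl e ≠ c) : Z.ind c e = 0 := by
  classical
  rw [ind_apply, if_neg h]

/-- the (finite) set of classes of `E`. -/
def classes : Set C := Set.range Z.cl

theorem classes_finite : Z.classes.Finite := Set.finite_range _

/-- **the generators**: the coordinate functions and the indicators of the classes. -/
def gens : Set (E → L) := Set.range Z.tau ∪ Z.ind '' Z.classes

theorem gens_finite : Z.gens.Finite :=
  (Set.finite_range _).union (Z.classes_finite.image _)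

theorem tau_mem_gens (i : Fin g) : Z.tau i ∈ Z.gens := Or.inl ⟨i, rfl⟩

theorem ind_mem_gens (e : E) : Z.ind (Z.cl e) ∈ Z.gens := Or.inr ⟨Z.cl e, ⟨e, rfl⟩, rfl⟩

/-- `int`: the generators take values in `A`. -/
theorem gens_int : ∀ s ∈ Z.gens, ∀ e, s e ∈ D.A.toSubring := by
  classical
  rintro s (⟨i, rfl⟩ | ⟨c, _, rfl⟩) e
  · exact (Z.tauV e i : D.A).2
  · rw [ind_apply]
    split_ifs
    · exact D.A.toSubring.one_mem
    · exact D.A.toSubring.zero_mem

/-- equivariance of the coordinates. -/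
theorem tau_act (i : Fin g) (γ : Γ) (e : E) : Z.tau i (Z.act γ e) = γ • Z.tau i e := by
  choose T' hT' using fun j => exists_act (Z.discCompat γ) (Z.fixes γ) j (Z.tauV e j)
  have h1 : Z.ρ γ • S.kap (Z.tauV e) = S.kap T' := smul_kap (Z.discCompat γ) (Z.fixes γ) hT'
  have h2 : Z.tauV (Z.act γ e) = T' := by
    apply Z.tauV_eq_of_kap
    rw [← h1, Z.kap_tauV, smul_sub, Z.rd_act, Z.pt_act, Z.fix_y']
  unfold tau
  rw [h2, hT' i, Z.base]

/-- `eqv`: the generators are `Γ`-equivariant. -/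
theorem gens_eqv : ∀ s ∈ Z.gens, ∀ (γ : Γ) (e : E), s (Z.act γ e) = γ • s e := by
  classical
  rintro s (⟨i, rfl⟩ | ⟨c, _, rfl⟩) γ e
  · exact Z.tau_act i γ e
  · rw [ind_apply, ind_apply, Z.cl_act]
    split_ifs
    · rw [smul_one]
    · rw [smul_zero]

/-- `sep`: the generators separate the points of `E`. -/
theorem gens_sep : ∀ e e' : E, (∀ s ∈ Z.gens, s e = s e') → e = e' := by
  intro e e' h
  have hc : Z.cl e' = Z.cl e := by
    by_contra hne
    have := h _ (Z.ind_mem_gens e)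
    rw [Z.ind_self, Z.ind_of_ne hne] at this
    exact one_ne_zero this
  have ht : Z.tauV e = Z.tauV e' := by
    funext i
    apply Subtype.ext
    apply Subtype.ext
    exact h _ (Z.tau_mem_gens i)
  have h1 := Z.kap_tauV e
  rw [ht, Z.kap_tauV e', Z.rd_congr hc] at h1
  exact Z.inj e e' hc.symm (sub_left_inj.mp h1).symm

end ExtSetting

variable {W : Type} [CommRing W] [Algebra W L]

/-- polynomial expressions in the coordinates of `e` and `e'` lie in `W[S] ⊗ W[S]`. -/
theorem aeval_mem_tensorSpan (q : MvPolynomial (Fin g ⊕ Fin g) W) :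
    (fun p : E × E => MvPolynomial.aeval (pairVal (Z.tauV p.1) (Z.tauV p.2)) q)
      ∈ tensorSpan W Z.gens := by
  induction q using MvPolynomial.induction_on with
  | C w =>
    have : (fun p : E × E => MvPolynomial.aeval (pairVal (Z.tauV p.1) (Z.tauV p.2))
        (MvPolynomial.C w : MvPolynomial (Fin g ⊕ Fin g) W)) = w • (1 : E × E → L) := by
      funext p
      rw [MvPolynomial.aeval_C, Pi.smul_apply, Pi.one_apply, Algebra.smul_def, mul_one]
    rw [this]
    exact Submodule.smul_mem _ w (one_mem_tensorSpan _)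
  | add q q' hq hq' =>
    have : (fun p : E × E => MvPolynomial.aeval (pairVal (Z.tauV p.1) (Z.tauV p.2)) (q + q'))
        = (fun p : E × E => MvPolynomial.aeval (pairVal (Z.tauV p.1) (Z.tauV p.2)) q)
          + (fun p : E × E => MvPolynomial.aeval (pairVal (Z.tauV p.1) (Z.tauV p.2)) q') := by
      funext p
      rw [map_add, Pi.add_apply]
    rw [this]
    exact Submodule.add_mem _ hq hq'
  | mul_X q j hq =>
    have hX : (fun p : E × E => MvPolynomial.aeval (pairVal (Z.tauV p.1) (Z.tauV p.2))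
        (MvPolynomial.X j : MvPolynomial (Fin g ⊕ Fin g) W)) ∈ tensorSpan W Z.gens := by
      rcases j with j | j
      · have : (fun p : E × E => MvPolynomial.aeval (pairVal (Z.tauV p.1) (Z.tauV p.2))
            (MvPolynomial.X (Sum.inl j) : MvPolynomial (Fin g ⊕ Fin g) W))
            = tens (Z.tau j) (1 : E → L) := by
          funext p
          rw [MvPolynomial.aeval_X, tens_apply, Pi.one_apply, mul_one]
          rfl
        rw [this]
        exact tens_mem_tensorSpan (Algebra.subset_adjoin (Z.tau_mem_gens j)) (Subalgebra.one_mem _)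
      · have : (fun p : E × E => MvPolynomial.aeval (pairVal (Z.tauV p.1) (Z.tauV p.2))
            (MvPolynomial.X (Sum.inr j) : MvPolynomial (Fin g ⊕ Fin g) W))
            = tens (1 : E → L) (Z.tau j) := by
          funext p
          rw [MvPolynomial.aeval_X, tens_apply, Pi.one_apply, one_mul]
          rfl
        rw [this]
        exact tens_mem_tensorSpan (Subalgebra.one_mem _) (Algebra.subset_adjoin (Z.tau_mem_gens j))
    have : (fun p : E × E => MvPolynomial.aeval (pairVal (Z.tauV p.1) (Z.tauV p.2))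
        (q * MvPolynomial.X j))
        = (fun p : E × E => MvPolynomial.aeval (pairVal (Z.tauV p.1) (Z.tauV p.2)) q)
          * (fun p : E × E => MvPolynomial.aeval (pairVal (Z.tauV p.1) (Z.tauV p.2))
            (MvPolynomial.X j : MvPolynomial (Fin g ⊕ Fin g) W)) := by
      funext p
      rw [map_mul, Pi.mul_apply]
    rw [this]
    exact tensorSpan_mul hq hX

/-- the product of two indicators, as a function on `E × E`. -/
theorem tens_ind_mem (e e' : E) :
    tens (Z.ind (Z.cl e)) (Z.ind (Z.cl e')) ∈ tensorSpan W Z.gens :=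
  tens_mem_tensorSpan (Algebra.subset_adjoin (Z.ind_mem_gens e))
    (Algebra.subset_adjoin (Z.ind_mem_gens e'))

theorem tens_ind_apply (e e' : E) (p : E × E)
    [Decidable (Z.cl p.1 = Z.cl e ∧ Z.cl p.2 = Z.cl e')] :
    tens (Z.ind (Z.cl e)) (Z.ind (Z.cl e')) p
      = if Z.cl p.1 = Z.cl e ∧ Z.cl p.2 = Z.cl e' then 1 else 0 := by
  classical
  rw [tens_apply, Z.ind_apply, Z.ind_apply]
  by_cases h1 : Z.cl p.1 = Z.cl e <;> by_cases h2 : Z.cl p.2 = Z.cl e' <;> simp [h1, h2]

/-! ### comultiplication of the indicators -/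

/-- `e_c (x + x') = Σ_{c1 ⊕ c2 = c} e_{c1}(x) e_{c2}(x')`, exactly. -/
theorem approxComul_ind (x0 : E) (w : W) :
    ApproxComul W D.A.toSubring Z.gens w (Z.ind (Z.cl x0)) := by
  classical
  haveI : Fintype E := Fintype.ofFinite _
  let rep : E → E := fun x => (⟨x, rfl⟩ : ∃ x1, Z.cl x1 = Z.cl x).choose
  have hrep : ∀ x, Z.cl (rep x) = Z.cl x := fun x => (⟨x, rfl⟩ : ∃ x1, Z.cl x1 = Z.cl x).choose_spec
  have hrep' : ∀ x x', Z.cl x = Z.cl x' → rep x = rep x' := by
    intro x x' h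
    show (⟨x, rfl⟩ : ∃ x1, Z.cl x1 = Z.cl x).choose = (⟨x', rfl⟩ : ∃ x1, Z.cl x1 = Z.cl x').choose
    congr 1
    funext x1
    rw [h]
  let I : Finset (E × E) := Finset.univ.filter fun q =>
    rep q.1 = q.1 ∧ rep q.2 = q.2 ∧ Z.cadd (Z.cl q.1) (Z.cl q.2) = Z.cl x0
  refine ⟨∑ q ∈ I, tens (Z.ind (Z.cl q.1)) (Z.ind (Z.cl q.2)),
    Submodule.sum_mem _ fun q _ => tens_ind_mem Z q.1 q.2, fun p => ⟨0, D.A.toSubring.zero_mem, ?_⟩⟩
  rw [mul_zero, sub_eq_zero, Finset.sum_apply]
  by_cases hp : Z.cadd (Z.cl p.1) (Z.cl p.2) = Z.cl x0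
  · rw [Finset.sum_eq_single (rep p.1, rep p.2)]
    · rw [tens_ind_apply, if_pos ⟨(hrep p.1).symm, (hrep p.2).symm⟩, Z.ind_apply, if_pos]
      rw [Z.cl_add, hp]
    · intro q hq hne
      rw [tens_ind_apply, if_neg]
      rintro ⟨h1, h2⟩
      apply hne
      obtain ⟨hq1, hq2, _⟩ := (Finset.mem_filter.mp hq).2
      refine Prod.ext ?_ ?_
      · show q.1 = rep p.1
        rw [← hq1]
        exact hrep' _ _ h1.symm
      · show q.2 = rep p.2
        rw [← hq2]
        exact hrep' _ _ h2.symm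
    · intro hnot
      exfalso
      apply hnot
      rw [Finset.mem_filter]
      refine ⟨Finset.mem_univ _, hrep' _ _ (hrep p.1), hrep' _ _ (hrep p.2), ?_⟩
      show Z.cadd (Z.cl (rep p.1)) (Z.cl (rep p.2)) = Z.cl x0
      rw [hrep, hrep, hp]
  · rw [Z.ind_apply, if_neg (by rw [Z.cl_add]; exact hp)]
    symm
    refine Finset.sum_eq_zero fun q hq => ?_
    rw [tens_ind_apply, if_neg]
    rintro ⟨h1, h2⟩
    apply hp
    obtain ⟨_, _, hq3⟩ := (Finset.mem_filter.mp hq).2
    rw [h1, h2, hq3]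

/-! ### comultiplication of the coordinates -/

/-- the correction class `δ(e, e') = y(c) + y(c') − κ − y(c'')`, in the kernel of reduction. -/
theorem delta_mem_ker (e e' : E) :
    Z.y (Z.rd e) + Z.y (Z.rd e') - Z.κ (Z.cl e) (Z.cl e') - Z.y (Z.rd (e + e'))
      ∈ (redPic D).ker := by
  have h3 : redPic D (Z.pt (e + e')) = redPic D (Z.pt e) + redPic D (Z.pt e')
      - redPic D (Z.κ (Z.cl e) (Z.cl e')) := by
    rw [Z.pt_add, map_sub, map_add]
  rw [AddMonoidHom.mem_ker, map_sub, map_sub, map_add, Z.red_y' e, Z.red_y' e', Z.red_y' (e + e')]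
  unfold ExtSetting.rd
  rw [h3]
  abel

/-- the coordinates of `δ(e, e')`. -/
def deltaV (e e' : E) : Fin g → mA D :=
  (S.kerEquiv Z.hRR).symm ⟨_, delta_mem_ker Z e e'⟩

theorem kap_deltaV (e e' : E) :
    S.kap (deltaV Z e e')
      = Z.y (Z.rd e) + Z.y (Z.rd e') - Z.κ (Z.cl e) (Z.cl e') - Z.y (Z.rd (e + e')) := by
  have h := (S.kerEquiv Z.hRR).apply_symm_apply ⟨_, delta_mem_ker Z e e'⟩
  exact congrArg Subtype.val h

/-- the coordinates of `δ(e, e')` are `Γ`-fixed. -/
theorem deltaV_fixed (e e' : E) (γ : Γ) (i : Fin g) :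
    γ • ((deltaV Z e e' i : D.A) : L) = ((deltaV Z e e' i : D.A) : L) := by
  rw [← Z.base]
  refine coord_fixed_of_smul_eq (Z.discCompat γ) (Z.fixes γ) ?_ i
  rw [kap_deltaV, smul_sub, smul_sub, smul_add, Z.fix_y' γ e, Z.fix_y' γ e', Z.fix_y' γ (e + e'),
    Z.κ_fix]

/-- the key identity: `kap τ(e) + kap τ(e') + kap δ(e,e') = kap τ(e + e')`. -/
theorem kap_tauV_add (e e' : E) :
    S.kap (Z.tauV e) + S.kap (Z.tauV e') + S.kap (deltaV Z e e') = S.kap (Z.tauV (e + e')) := by
  rw [Z.kap_tauV, Z.kap_tauV, Z.kap_tauV, kap_deltaV, Z.pt_add]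
  abel

/-- `deltaV` only depends on the classes. -/
theorem deltaV_congr {x1 x1' x2 x2' : E} (h1 : Z.cl x1 = Z.cl x2) (h1' : Z.cl x1' = Z.cl x2') :
    deltaV Z x1 x1' = deltaV Z x2 x2' := by
  apply S.kap_injective
  have h3 : Z.cl (x1 + x1') = Z.cl (x2 + x2') := by rw [Z.cl_add, Z.cl_add, h1, h1']
  rw [kap_deltaV, kap_deltaV, h1, h1', Z.rd_congr h1, Z.rd_congr h1', Z.rd_congr h3]

/-- **the approximate comultiplication of `τ_i`** from (FG-out). -/
theorem approxComul_tau (hWA : ∀ w : W, algebraMap W L w ∈ D.A)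
    (hWfix : ∀ a : D.A, (∀ γ : Γ, γ • (a : L) = (a : L)) → ∃ w : W, algebraMap W L w = (a : L))
    (hFG : FGOut S W) (i : Fin g) (w : W) (hw : w ≠ 0) :
    ApproxComul W D.A.toSubring Z.gens w (Z.tau i) := by
  classical
  haveI : Fintype E := Fintype.ofFinite _
  -- a common bound for all coordinates
  obtain ⟨a, ha, hab⟩ := exists_bound
    (Finset.univ.image fun q : E × Fin g => (Z.tauV q.1 q.2 : D.A)) (by
      intro b hb
      obtain ⟨q, _, rfl⟩ := Finset.mem_image.mp hb
      exact not_isUnit_of_mA _)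
  have hbound : ∀ (x : E) (j : Fin g), ∃ b : D.A, (Z.tauV x j : D.A) = a * b := fun x j =>
    hab _ (Finset.mem_image.mpr ⟨(x, j), Finset.mem_univ _, rfl⟩)
  -- the polynomials, for each pair of elements
  have hpoly : ∀ q : E × E, ∃ p : Fin g → MvPolynomial (Fin g ⊕ Fin g) W,
      ∀ T T' T'' : Fin g → mA D,
        (∀ i, ∃ b : D.A, (T i : D.A) = a * b) → (∀ i, ∃ b : D.A, (T' i : D.A) = a * b) →
        S.kap T + S.kap T' + S.kap (deltaV Z q.1 q.2) = S.kap T'' →
        ∀ i, ∃ b : D.A, ((T'' i : D.A) : L) - MvPolynomial.aeval (pairVal T T') (p i)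
          = algebraMap W L w * (b : L) := fun q =>
    hFG (deltaV Z q.1 q.2) (fun j => hWfix _ (fun γ => deltaV_fixed Z q.1 q.2 γ j)) a ha w hw
  choose poly hpoly' using hpoly
  -- representatives of the classes
  let rep : E → E := fun x => (⟨x, rfl⟩ : ∃ x1, Z.cl x1 = Z.cl x).choose
  have hrep : ∀ x, Z.cl (rep x) = Z.cl x := fun x => (⟨x, rfl⟩ : ∃ x1, Z.cl x1 = Z.cl x).choose_spec
  have hrep' : ∀ x x', Z.cl x = Z.cl x' → rep x = rep x' := by
    intro x x' h
    show (⟨x, rfl⟩ : ∃ x1, Z.cl x1 = Z.cl x).choose = (⟨x', rfl⟩ : ∃ x1, Z.cl x1 = Z.cl x').choose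
    congr 1
    funext x1
    rw [h]
  let I : Finset (E × E) := Finset.univ.filter fun q => rep q.1 = q.1 ∧ rep q.2 = q.2
  let G : E × E → E × E → L := fun q p =>
    MvPolynomial.aeval (pairVal (Z.tauV p.1) (Z.tauV p.2)) (poly q i)
  refine ⟨∑ q ∈ I, tens (Z.ind (Z.cl q.1)) (Z.ind (Z.cl q.2)) * G q,
    Submodule.sum_mem _ fun q _ => tensorSpan_mul (tens_ind_mem Z q.1 q.2)
      (aeval_mem_tensorSpan Z (poly q i)), fun p => ?_⟩
  -- only the term of the classes of `p` survives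
  have hsum : (∑ q ∈ I, tens (Z.ind (Z.cl q.1)) (Z.ind (Z.cl q.2)) * G q) p
      = G (rep p.1, rep p.2) p := by
    rw [Finset.sum_apply, Finset.sum_eq_single (rep p.1, rep p.2)]
    · rw [Pi.mul_apply, tens_ind_apply, if_pos ⟨(hrep p.1).symm, (hrep p.2).symm⟩, one_mul]
    · intro q hq hne
      rw [Pi.mul_apply, tens_ind_apply, if_neg, zero_mul]
      rintro ⟨h1, h2⟩
      apply hne
      obtain ⟨hq1, hq2⟩ := (Finset.mem_filter.mp hq).2
      refine Prod.ext ?_ ?_
      · show q.1 = rep p.1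
        rw [← hq1]
        exact hrep' _ _ h1.symm
      · show q.2 = rep p.2
        rw [← hq2]
        exact hrep' _ _ h2.symm
    · intro hnot
      exfalso
      apply hnot
      rw [Finset.mem_filter]
      exact ⟨Finset.mem_univ _, hrep' _ _ (hrep p.1), hrep' _ _ (hrep p.2)⟩
  have hδ : deltaV Z (rep p.1) (rep p.2) = deltaV Z p.1 p.2 := deltaV_congr Z (hrep _) (hrep _)
  obtain ⟨b, hb⟩ := hpoly' (rep p.1, rep p.2) (Z.tauV p.1) (Z.tauV p.2) (Z.tauV (p.1 + p.2))
    (hbound p.1) (hbound p.2) (by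
      show S.kap (Z.tauV p.1) + S.kap (Z.tauV p.2) + S.kap (deltaV Z (rep p.1) (rep p.2)) = _
      rw [hδ]
      exact kap_tauV_add Z p.1 p.2) i
  refine ⟨(b : L), b.2, ?_⟩
  show Z.tau i (p.1 + p.2) - (∑ q ∈ I, tens (Z.ind (Z.cl q.1)) (Z.ind (Z.cl q.2)) * G q) p = _
  rw [hsum, ← hb]
  rfl

/-- **The generators `{τ_i} ∪ {e_c}` form an approximate Hopf generating set.** -/
theorem approxGen (hWA : ∀ w : W, algebraMap W L w ∈ D.A)
    (hWfix : ∀ a : D.A, (∀ γ : Γ, γ • (a : L) = (a : L)) → ∃ w : W, algebraMap W L w = (a : L))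
    (hFG : FGOut S W) : ApproxGen W D.A.toSubring Z.act Z.gens where
  fin := Z.gens_finite
  int := Z.gens_int
  eqv := Z.gens_eqv
  sep := Z.gens_sep
  comul := by
    rintro s (⟨i, rfl⟩ | ⟨c, ⟨x0, rfl⟩, rfl⟩) w hw
    · exact approxComul_tau Z hWA hWfix hFG i w hw
    · exact approxComul_ind Z x0 w

end

end Fermat.Agent.MZ.ORDL.ExtGen6
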