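/-
Programme MZ (S15), chapter ORDL, file ExtMain6 (helper6): **the abstract plug for extension
settings** — the analogue of `FF/INST/Main1.exists_approxGen_main` for a finite abelian group `E`
with a `Γ`-action and a `Γ`-equivariant map `pt : E → Pic0` additive up to a `Γ`-fixed defect.

* `exists_approxGen_ext` : all inputs of F5/F3'/GLUE discharged, `ApproxGen W A act S0` on `E`.
-/
import Mathlib
import Fermat.Agent.MZ.ORDL.ExtGen6
import Fermat.Agent.FF.INST.Main1

set_option autoImplicit false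
set_option linter.unusedSectionVars false
set_option linter.style.longLine false

namespace Fermat.Agent.MZ.ORDL.ExtMain6

open AlgebraicCurve Fermat.Agent.X0.FF Fermat.Agent.RR.LSpace Fermat.Agent.MW.EMB.Value6
open Fermat.Agent.FF.RED.RedDatum7 Fermat.Agent.FF.RED.Disc7 Fermat.Agent.FF.KER.Ker0
open Fermat.Agent.FF.KER.KerGal0 Fermat.Agent.FF.INST.Gen0 Fermat.Agent.FF.RED.RedAut7
open Fermat.Agent.FF.BASE.ApproxGen2 Fermat.Agent.FF.NS.Link9 Fermat.Agent.FF.GLUE.Rational7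
open Fermat.Agent.FF.FAM.Chain8 Fermat.Agent.FF.INST.Main0 Fermat.Agent.FF.INST.Main1
open Fermat.Agent.MZ.ORDL.ExtGen6

noncomputable section

variable {L F k Ft : Type} [Field L] [Field F] [Algebra L F] [Field k] [Field Ft] [Algebra k Ft]
variable {D : RedDatum L F k Ft}
variable [IsAlgClosed L] [CharZero L] {x : F} [HasCanonicalDivisor (K := L) (F := F)] [Infinite k]
variable {Γ : Type} [Group Γ] (ρ : Γ →* SemilinearAut L F) [MulSemiringAction Γ L]

/-- **the approximate Hopf generating set over `Γ`** on an extension `E` of classes. -/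
theorem exists_approxGen_ext (hx : IsGen L x) (hsurj : Function.Surjective D.red) {ι : Type}
    (C : ChartCover D ι)
    (base : ∀ (γ : Γ) (a : L), SemilinearAut.baseAut (ρ γ) a = γ • a)
    (triv : ∀ (γ : Γ) (P : Place L F), D.r (ρ γ • P) = D.r P)
    (Bad : Finset (Place k Ft))
    (hunif : ∀ Q : Place k Ft, Q ∉ Bad → ∃ u : D.G, D.PoleFree (u : F) Q ∧ Q.ord (D.red u) = 1 ∧
      ∀ γ : Γ, ρ γ • (u : F) = (u : F))
    [Infinite D.A] {W : Type} [CommRing W] [Algebra W L]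
    (hΓA : ∀ (γ : Γ) (a : L), a ∈ D.A → γ • a ∈ D.A)
    (hsmall : Fermat.Agent.FF.GLUE.UniqSeries7.Small (IsLocalRing.maximalIdeal D.A))
    (hrank : ∀ w : D.A, w ≠ 0 → ∀ c : D.A, ¬ IsUnit c → ∃ n : ℕ, c ^ n ∈ Ideal.span {w})
    (hWA : ∀ w : W, algebraMap W L w ∈ D.A) (hWinj : Function.Injective (algebraMap W L))
    (hWfix : ∀ a : D.A, (∀ γ : Γ, γ • (a : L) = (a : L)) → ∃ w : W, algebraMap W L w = (a : L))
    {E Cl : Type} [AddCommGroup E] [Finite E] (act : Γ → E → E) (pt : E → Pic0 L F)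
    (pt_act : ∀ γ e, pt (act γ e) = ρ γ • pt e)
    (cl : E → Cl) (cl_act : ∀ γ e, cl (act γ e) = cl e)
    (cadd : Cl → Cl → Cl) (cl_add : ∀ e e', cl (e + e') = cadd (cl e) (cl e'))
    (inj : ∀ e e', cl e = cl e' → pt e = pt e' → e = e')
    (red_pt : ∀ e e', cl e = cl e' → redPic D (pt e) = redPic D (pt e'))
    (κ : Cl → Cl → Pic0 L F)
    (pt_add : ∀ e e', pt (e + e') = pt e + pt e' - κ (cl e) (cl e'))
    (κ_fix : ∀ γ c c', ρ γ • κ c c' = κ c c') :
    ∃ S0 : Set (E → L), ApproxGen W D.A.toSubring act S0 := by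
  have hstab : ∀ (γ : Γ), ∀ x ∈ (⊥ : AddSubgroup (Pic0 L F)),
      ρ γ • x ∈ (⊥ : AddSubgroup (Pic0 L F)) := by
    intro γ x hx
    rw [AddSubgroup.mem_bot] at hx ⊢
    rw [hx]
    exact @smul_zero (SemilinearAut L F) (Pic0 L F) _ _ (ρ γ)
  obtain ⟨S, Z₀, hZρ, -⟩ := Fermat.Agent.FF.INST.Main0.exists_setting ρ hx hsurj C base triv Bad
    hunif (⊥ : AddSubgroup (Pic0 L F)) inferInstance hstab
  subst hZρ
  have hPS : PSOut S := psOut_of_nsSystem hx hsurj C hrank S
  have hFG := fgOut_of_psOut Z₀ hΓA hsmall hrank hWA hWinj hWfix hPS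
  have hunr : ∀ Q : Place k Ft, Q ∉ Bad → ∃ P : Place L F, D.r P = Q ∧ ∀ γ : Γ, Z₀.ρ γ • P = P := by
    intro Q hQ
    obtain ⟨u, hpf, h1, hfix⟩ := hunif Q hQ
    obtain ⟨P, hP, -, hPfix⟩ := exists_fixed_centre Z₀.ρ triv u hpf h1 hfix
    exact ⟨P, hP, hPfix⟩
  obtain ⟨y, hy1, hy2⟩ := Fermat.Agent.FF.INST.Lift1.exists_lifts' Z₀.ρ Bad hunr
  let Z : ExtSetting S Γ E Cl :=
    { hRR := Z₀.hRR
      ρ := Z₀.ρ
      base := base
      triv := triv
      fixes := Z₀.fixes
      y := y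
      red_y := hy1
      fix_y := hy2
      act := act
      pt := pt
      pt_act := pt_act
      cl := cl
      cl_act := cl_act
      cadd := cadd
      cl_add := cl_add
      inj := inj
      red_pt := red_pt
      κ := κ
      pt_add := pt_add
      κ_fix := κ_fix }
  exact ⟨Z.gens, ExtGen6.approxGen Z hWA hWfix hFG⟩

end

end Fermat.Agent.MZ.ORDL.ExtMain6
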