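/-
Programme MZ (S15), chapter ORDL, file KumExt6 (helper6): **the Kummer extension module**.

For `y : JZero N` with `z = n • y` fixed by `G_ℚ`, the Kummer extension
`0 → J[n] → E → ℤ/n → 0` of `z` is realised on the group `KumMod N n = ZMod n × J[n]` with the
twisted action `σ (a, t) = (a, σ t + a • (σ y − y))`; the (non additive) map
`pt (a, t) = t + a • y` identifies it with the classes `{w | n • w ∈ ℤ z}` modulo `ℤ z`.

* `kumCoc`, `kumAct`; `kumAct_one`, `kumAct_mul`, `kumAct_add`, `hopen_kum`;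
* `kumPt`, `kumPt_act`, `kumPt_add` (additivity up to `0` or `z`), `kumPt_inj`;
* `kumIncl : J[n] →+ KumMod`, `kumAct_kumIncl`, `kumAct_base_sub` (`σ (1,0) − (1,0) = (0, σ y − y)`);
* level transfer `kumPullback`.
-/
import Mathlib
import Fermat.Agent.FF.HOPF.Tors6

set_option autoImplicit false
set_option linter.unusedSectionVars false
set_option linter.style.longLine false

open AlgebraicCurve ModularCurve

namespace Fermat.Agent.MZ.ORDL.KumExt6

open Fermat.Agent.TW.FLAT.FlatModule6 Fermat.Agent.FF.LEVEL.Transfer0 Fermat.Agent.FF.HOPF.Tors6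
open Fermat.Agent.ES.HECKE.LevelPullback12

noncomputable section

variable (N : ℕ) [NeZero N] (n : ℕ) [NeZero n]

/-- The underlying group of the Kummer extension. -/
abbrev KumMod : Type := ZMod n × Submodule.torsionBy ℤ (JZero N) (n : ℤ)

instance finite_kumMod : Finite (KumMod N n) := by
  haveI : Finite (Submodule.torsionBy ℤ (JZero N) (n : ℤ)) :=
    finite_tors N _ (Int.natCast_ne_zero.2 (NeZero.ne n))
  exact inferInstance

variable {N n}

lemma natCast_zsmul_tors (t : Submodule.torsionBy ℤ (JZero N) (n : ℤ)) : n • t = 0 := by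
  apply Subtype.ext
  have ht := t.2
  rw [Submodule.mem_torsionBy_iff] at ht
  rw [Submodule.coe_smul_of_tower, Submodule.coe_zero, ← natCast_zsmul]
  exact ht

/-- `(a + b).val • c = a.val • c + b.val • c` for `c` killed by `n`. -/
lemma val_add_nsmul {A : Type*} [AddCommGroup A] (a b : ZMod n) (c : A) (hc : n • c = 0) :
    (a + b).val • c = a.val • c + b.val • c := by
  rw [ZMod.val_add, ← add_nsmul]
  conv_rhs => rw [← Nat.div_add_mod (a.val + b.val) n, add_nsmul, mul_nsmul, hc, smul_zero,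
    zero_add]

lemma galois_nsmul (σ : GQ) (m : ℕ) (x : JZero N) : σ • (m • x) = m • (σ • x) :=
  map_nsmul (DistribSMul.toAddMonoidHom (JZero N) σ) m x

variable (y : JZero N) (hy : ∀ σ : GQ, σ • (n • y) = n • y)

/-- The Kummer cocycle `σ ↦ σ y − y ∈ J[n]`. -/
def kumCoc (σ : GQ) : Submodule.torsionBy ℤ (JZero N) (n : ℤ) :=
  ⟨σ • y - y, by
    rw [Submodule.mem_torsionBy_iff, natCast_zsmul, nsmul_sub, ← galois_nsmul, hy σ]
    exact sub_self _⟩

@[simp] lemma coe_kumCoc (σ : GQ) :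
    ((kumCoc y hy σ : Submodule.torsionBy ℤ (JZero N) (n : ℤ)) : JZero N) = σ • y - y := rfl

/-- The twisted action on `ZMod n × J[n]`. -/
def kumAct (σ : GQ) (e : KumMod N n) : KumMod N n :=
  (e.1, torsAct N (n : ℤ) σ e.2 + e.1.val • kumCoc y hy σ)

@[simp] lemma kumAct_fst (σ : GQ) (e : KumMod N n) : (kumAct y hy σ e).1 = e.1 := rfl

lemma kumAct_snd (σ : GQ) (e : KumMod N n) :
    (kumAct y hy σ e).2 = torsAct N (n : ℤ) σ e.2 + e.1.val • kumCoc y hy σ := rfl

/-- The point map `(a, t) ↦ t + a • y`. -/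
def kumPt (e : KumMod N n) : JZero N := (e.2 : JZero N) + e.1.val • y

lemma kumPt_act (σ : GQ) (e : KumMod N n) : kumPt y (kumAct y hy σ e) = σ • kumPt y e := by
  unfold kumPt
  rw [kumAct_fst, kumAct_snd, Submodule.coe_add, coe_torsAct, Submodule.coe_smul_of_tower,
    coe_kumCoc, smul_add, nsmul_sub, galois_nsmul]
  abel

lemma kumAct_one (e : KumMod N n) : kumAct y hy 1 e = e := by
  refine Prod.ext rfl ?_
  rw [kumAct_snd, torsAct_one]
  have : kumCoc y hy 1 = 0 := Subtype.ext (by rw [coe_kumCoc, one_smul, sub_self]; rfl)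
  rw [this, smul_zero, add_zero]

lemma kumCoc_mul (σ τ : GQ) :
    kumCoc y hy (σ * τ) = torsAct N (n : ℤ) σ (kumCoc y hy τ) + kumCoc y hy σ := by
  apply Subtype.ext
  rw [Submodule.coe_add, coe_torsAct, coe_kumCoc, coe_kumCoc, coe_kumCoc, mul_smul, smul_sub]
  abel

lemma torsAct_nsmul (σ : GQ) (m : ℕ) (t : Submodule.torsionBy ℤ (JZero N) (n : ℤ)) :
    torsAct N (n : ℤ) σ (m • t) = m • torsAct N (n : ℤ) σ t := by
  apply Subtype.ext
  rw [coe_torsAct, Submodule.coe_smul_of_tower, Submodule.coe_smul_of_tower, coe_torsAct,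
    galois_nsmul]

lemma kumAct_mul (σ τ : GQ) (e : KumMod N n) :
    kumAct y hy (σ * τ) e = kumAct y hy σ (kumAct y hy τ e) := by
  refine Prod.ext rfl ?_
  rw [kumAct_snd, kumAct_snd, kumAct_snd, kumAct_fst, torsAct_mul, torsAct_add, kumCoc_mul,
    smul_add, torsAct_nsmul]
  abel

lemma kumAct_add (σ : GQ) (e e' : KumMod N n) :
    kumAct y hy σ (e + e') = kumAct y hy σ e + kumAct y hy σ e' := by
  refine Prod.ext rfl ?_
  rw [Prod.snd_add, kumAct_snd, kumAct_snd, kumAct_snd, Prod.snd_add, Prod.fst_add, torsAct_add,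
    val_add_nsmul _ _ _ (natCast_zsmul_tors _)]
  abel

/-- Open stabilizers on the Kummer module. -/
theorem hopen_kum (e : KumMod N n) :
    ∃ K : IntermediateField ℚ Qb, FiniteDimensional ℚ K ∧
      ∀ σ ∈ K.fixingSubgroup, kumAct y hy σ e = e := by
  obtain ⟨K₁, hK₁, H₁⟩ := Fermat.Agent.ES.GAL.OpenStab12.hasLevel_pic0 N (e.2 : JZero N)
  obtain ⟨K₂, hK₂, H₂⟩ := Fermat.Agent.ES.GAL.OpenStab12.hasLevel_pic0 N y
  haveI := hK₁
  haveI := hK₂
  refine ⟨K₁ ⊔ K₂, IntermediateField.finiteDimensional_sup K₁ K₂, fun σ hσ => ?_⟩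
  have hσ' := (IntermediateField.mem_fixingSubgroup_iff (K₁ ⊔ K₂) σ).1 hσ
  have h1 : σ • (e.2 : JZero N) = (e.2 : JZero N) :=
    H₁ σ fun a ha => hσ' a ((le_sup_left : K₁ ≤ K₁ ⊔ K₂) ha)
  have h2 : σ • y = y := H₂ σ fun a ha => hσ' a ((le_sup_right : K₂ ≤ K₁ ⊔ K₂) ha)
  refine Prod.ext rfl ?_
  rw [kumAct_snd]
  have hc : kumCoc y hy σ = 0 := Subtype.ext (by rw [coe_kumCoc, h2, sub_self]; rfl)
  rw [hc, smul_zero, add_zero]
  exact Subtype.ext (by rw [coe_torsAct, h1])

/-- The additivity defect of `kumPt`. -/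
def kumDefect (a a' : ZMod n) : JZero N := if n ≤ a.val + a'.val then n • y else 0

lemma kumPt_add (e e' : KumMod N n) :
    kumPt y (e + e') = kumPt y e + kumPt y e' - kumDefect y e.1 e'.1 := by
  unfold kumPt kumDefect
  rw [Prod.snd_add, Prod.fst_add, Submodule.coe_add]
  by_cases h : n ≤ e.1.val + e'.1.val
  · rw [if_pos h]
    have h1 := ZMod.val_add_val_of_le h
    have h2 : e.1.val • y + e'.1.val • y = (e.1 + e'.1).val • y + n • y := by
      rw [← add_nsmul, ← add_nsmul, h1]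
    rw [eq_sub_iff_add_eq]
    calc (e.2 : JZero N) + (e'.2 : JZero N) + (e.1 + e'.1).val • y + n • y
        = (e.2 : JZero N) + (e'.2 : JZero N) + ((e.1 + e'.1).val • y + n • y) := by abel
      _ = (e.2 : JZero N) + (e'.2 : JZero N) + (e.1.val • y + e'.1.val • y) := by rw [h2]
      _ = _ := by abel
  · rw [if_neg h, sub_zero, ZMod.val_add_of_lt (not_le.mp h), add_nsmul]
    abel

lemma kumPt_inj (e e' : KumMod N n) (h1 : e.1 = e'.1) (h2 : kumPt y e = kumPt y e') : e = e' := by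
  refine Prod.ext h1 (Subtype.ext ?_)
  unfold kumPt at h2
  rw [h1] at h2
  exact add_right_cancel h2

/-- The inclusion `J[n] → E`. -/
def kumIncl : Submodule.torsionBy ℤ (JZero N) (n : ℤ) →+ KumMod N n :=
  AddMonoidHom.inr (ZMod n) _

@[simp] lemma kumIncl_apply (t : Submodule.torsionBy ℤ (JZero N) (n : ℤ)) :
    kumIncl (N := N) (n := n) t = (0, t) := rfl

lemma kumIncl_injective : Function.Injective (kumIncl (N := N) (n := n)) := fun a b h => by
  have := congrArg Prod.snd h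
  exact this

lemma kumAct_kumIncl (σ : GQ) (t : Submodule.torsionBy ℤ (JZero N) (n : ℤ)) :
    kumAct y hy σ (kumIncl t) = kumIncl (torsAct N (n : ℤ) σ t) := by
  refine Prod.ext rfl ?_
  rw [kumAct_snd, kumIncl_apply, kumIncl_apply]
  show torsAct N (n : ℤ) σ t + (0 : ZMod n).val • kumCoc y hy σ = torsAct N (n : ℤ) σ t
  rw [ZMod.val_zero, zero_smul, add_zero]

/-- The base point `(1, 0)`: the class of `y`. -/
def kumBase : KumMod N n := (1, 0)

lemma kumAct_base_sub (hn1 : 1 < n) (σ : GQ) :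
    kumAct y hy σ (kumBase (N := N) (n := n)) - kumBase = kumIncl (kumCoc y hy σ) := by
  haveI : Fact (1 < n) := ⟨hn1⟩
  refine Prod.ext ?_ ?_
  · show (1 : ZMod n) - 1 = 0
    exact sub_self _
  · show torsAct N (n : ℤ) σ 0 + (1 : ZMod n).val • kumCoc y hy σ - 0 = kumCoc y hy σ
    rw [ZMod.val_one, one_smul, sub_zero]
    have : torsAct N (n : ℤ) σ 0 = 0 := Subtype.ext (by rw [coe_torsAct]; exact smul_zero σ)
    rw [this, zero_add]

end

end Fermat.Agent.MZ.ORDL.KumExt6
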