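/-
Programme MZ (S15), chapter ORDL, file KumFlat6 (helper6): **the Kummer extension module is finite
flat over `ℤ_(ℓ)`**, abstract over the reduction datum (the analogue of
`FF/FINAL/Final0.torsFlat_of_redDatum` / `Final1.torsFlat_of_redDatum'`).

* `kumFlat_of_redDatum` : for a reduction datum `D` of `X₀(N)` over `ℚ̄` along `padicPlace ℓ` with the
  F0 obligations, `y : JZero N` with `n • y` fixed by `G_ℚ`:
  `HasFlatModel (ratLocalizedAt ℓ) Qb GQ (KumMod N n) (kumAct y hy)`.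
-/
import Mathlib
import Fermat.Agent.MZ.ORDL.ExtMain6
import Fermat.Agent.MZ.ORDL.KumExt6
import Fermat.Agent.FF.FINAL.Final1

set_option autoImplicit false
set_option linter.unusedSectionVars false
set_option linter.style.longLine false

namespace Fermat.Agent.MZ.ORDL.KumFlat6

open AlgebraicCurve ModularCurve Fermat.Agent.X0.FF Fermat.Agent.RR.LSpace
open Fermat.Agent.FF.RED.RedDatum7 Fermat.Agent.FF.RED.Disc7 Fermat.Agent.FF.KER.Ker0
open Fermat.Agent.FF.BASE.ApproxGen2 Fermat.Agent.FF.NS.Link9 Fermat.Agent.FF.BASE.Place2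
open Fermat.Agent.FF.LEVEL.Transfer0 Fermat.Agent.TW.FLAT.Points6 GaloisRep
open Fermat.Agent.TW.LOC.Defs2 Fermat.Agent.FF.HOPF.Tors6 Fermat.Agent.FF.INST.Orbit0
open Fermat.Agent.TW.FLAT.FlatModule6 Fermat.Agent.FF.FINAL.Final0 Fermat.Agent.FF.FINAL.Final1
open Fermat.Agent.MZ.ORDL.KumExt6 Fermat.Agent.MZ.ORDL.ExtMain6

noncomputable section

variable {ℓ : ℕ} [Fact ℓ.Prime] {N : ℕ} [NeZero N] {n : ℕ} [NeZero n]

/-- **the Kummer extension is finite flat**, abstract over the reduction datum. -/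
theorem kumFlat_of_redDatum
    {κ Ft : Type} [Field κ] [Field Ft] [Algebra κ Ft] [Infinite κ]
    (D : RedDatum Qb (X0.FF N) κ Ft) (hDA : D.A = padicPlace ℓ)
    {x : X0.FF N} (hx : IsGen Qb x) (hsurj : Function.Surjective D.red) {ι : Type}
    (C : ChartCover D ι)
    (triv : ∀ γ ∈ Iv ℓ, ∀ P : Place Qb (X0.FF N),
      D.r (arithmeticGalois (modularFunctionFieldFull N) γ • P) = D.r P)
    (Bad : Finset (Place κ Ft))
    (hunif : ∀ Q : Place κ Ft, Q ∉ Bad → ∃ u : D.G, D.PoleFree (u : X0.FF N) Q ∧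
      Q.ord (D.red u) = 1 ∧
      ∀ γ ∈ Iv ℓ, arithmeticGalois (modularFunctionFieldFull N) γ • (u : X0.FF N) = (u : X0.FF N))
    (y : JZero N) (hy : ∀ σ : GQ, σ • (n • y) = n • y) :
    HasFlatModel (ratLocalizedAt ℓ) Qb GQ (KumMod N n) (kumAct y hy) := by
  classical
  haveI := Fermat.Agent.X0.HasCanDivInst.hasCanonicalDivisor N
  have hP := placeHyp ℓ
  haveI : Infinite ↥D.A := by rw [hDA]; exact hP.infinite_A
  -- the approximate generating set over inertia
  obtain ⟨S0, h0⟩ := exists_approxGen_ext (D := D) (rhoI ℓ N) hx hsurj C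
    (fun γ a => rfl) (fun γ P => triv γ.1 γ.2 P) Bad
    (fun Q hQ => by
      obtain ⟨u, h1, h2, h3⟩ := hunif Q hQ
      exact ⟨u, h1, h2, fun γ => h3 γ.1 γ.2⟩)
    (W := ↥(Wur ℓ))
    (by rw [hDA]; exact hP.hΓA) (by rw [hDA]; exact hP.hsmall) (by rw [hDA]; exact hP.hrank)
    (by rw [hDA]; exact hP.hWA) hP.hWinj (by rw [hDA]; exact hP.hWfix)
    (E := KumMod N n) (Cl := ZMod n × Pic0 κ Ft)
    (fun γ : Iv ℓ => kumAct y hy γ.1)
    (fun e => kumPt y e)
    (fun γ e => kumPt_act y hy γ.1 e)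
    (fun e => (e.1, redPic D (kumPt y e)))
    (fun γ e => by
      refine Prod.ext rfl ?_
      show redPic D (kumPt y (kumAct y hy γ.1 e)) = redPic D (kumPt y e)
      rw [kumPt_act]
      exact Fermat.Agent.FF.INST.Gen0.redPic_smul (γ := rhoI ℓ N γ)
        (fun P => triv γ.1 γ.2 P) (kumPt y e))
    (fun c c' => (c.1 + c'.1, c.2 + c'.2 - redPic D (kumDefect y c.1 c'.1)))
    (fun e e' => by
      refine Prod.ext rfl ?_
      show redPic D (kumPt y (e + e')) = redPic D (kumPt y e) + redPic D (kumPt y e')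
        - redPic D (kumDefect y e.1 e'.1)
      rw [kumPt_add, map_sub, map_add])
    (fun e e' h1 h2 => kumPt_inj y e e' (Prod.ext_iff.1 h1).1 h2)
    (fun e e' h => (Prod.ext_iff.1 h).2)
    (fun c c' => kumDefect y c.1 c'.1)
    (fun e e' => kumPt_add y e e')
    (fun γ c c' => by
      show rhoI ℓ N γ • kumDefect y c.1 c'.1 = kumDefect y c.1 c'.1
      unfold kumDefect
      split_ifs
      · exact hy γ.1
      · exact @smul_zero (SemilinearAut Qb (X0.FF N)) (Pic0 Qb (X0.FF N)) _ _ (rhoI ℓ N γ))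
  have h0' : ApproxGen (Wur ℓ) (padicPlace ℓ).toSubring
      (fun γ : Iv ℓ => kumAct y hy γ.1) S0 := by
    have h := h0
    rw [hDA] at h
    exact h
  -- the orbit union under the decomposition group
  have h1 := approxGen_orbitUnion (act := kumAct y hy) (kumAct_one y hy)
    (kumAct_mul y hy) (kumAct_add y hy) (Dv ℓ) (Iv ℓ) hP.hnorm hP.hO hP.hWinj hP.hW
    (fun s _ => finite_twists (Dv ℓ) (fun a => finite_orbit_algEquiv a) s) h0'
  exact localDescent ℓ (kumAct_one y hy) (kumAct_mul y hy) (kumAct_add y hy) (hopen_kum y hy) h1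
    (fun σ hσ s hs => orbitUnion_stable (kumAct_mul y hy) hσ hs)

end

end Fermat.Agent.MZ.ORDL.KumFlat6
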