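/-
Programme MZ (S15), chapter ORDL, file KumLevel6 (helper6): **the Kummer extension module of
`J₀(N)` is finite flat over `ℤ_(ℓ)` for `ℓ ∤ N`** — the analogue of the S19 chain
`Model0.torsFlat_of_twoCharts` → `Aux0.torsFlat_of_level` → `Aux0.torsFlat_auxLevel` →
`Transfer0.torsFlat_of_auxLevel` → `HUnif0.torsFlat` for the module `KumExt6.KumMod N n`.

* `kumFlat_of_twoCharts`, `kumFlat_of_level`, `kumFlat_auxLevel`;
* `kumPullback` (level transfer), **`kumFlat`** :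
  `HasFlatModel (ratLocalizedAt ℓ) Qb GQ (KumMod N n) (kumAct y hy)` for `ℓ ∤ N`.
-/
import Mathlib
import Fermat.Agent.MZ.ORDL.KumFlat6
import Fermat.Agent.FF.FINAL.HUnif0

set_option autoImplicit false
set_option linter.unusedSectionVars false
set_option linter.style.longLine false
set_option linter.style.haveILetI false
set_option synthInstance.maxHeartbeats 400000

noncomputable section

open AlgebraicCurve ModularCurve HahnSeries IntermediateField

namespace Fermat.Agent.MZ.ORDL.KumLevel6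

open Fermat.Agent.ES.RED.Contract8 Fermat.Agent.ES.RED.TwoCharts8 Fermat.Agent.ES.RED.GaloisInst21
  Fermat.Agent.ES.RED.GaussRing15
  Fermat.Agent.X0 Fermat.Agent.X0.FF Fermat.Agent.RED.Interface4 Fermat.Agent.RED.BASE
  Fermat.Agent.FF.IFACE.GaussVal1 Fermat.Agent.FF.IFACE.Inst1
  Fermat.Agent.FF.RED.RedDatum7 Fermat.Agent.FF.NS.Link9 Fermat.Agent.FF.BASE.Place2
  Fermat.Agent.FF.LEVEL.Transfer0 Fermat.Agent.TW.LOC.Defs2 Fermat.Agent.TW.FLAT.FlatModule6
  Fermat.Agent.FF.FINAL.Model0 Fermat.Agent.ES.TOP.SPAux8 Fermat.Agent.RED.LVL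
  Fermat.Agent.RED.BASE.Hauptmodul12 Fermat.Agent.FF.FINAL.Aux0 Fermat.Agent.TW.FLAT.Points6
  Fermat.Agent.MZ.ORDL.KumExt6 Fermat.Agent.MZ.ORDL.KumFlat6 GaloisRep
  Fermat.Agent.ES.HECKE.LevelPullback12 Fermat.Agent.ES.RED.PullbackInj12

section TwoCharts

variable {M : ℕ} [NeZero M] (n e : ℕ) [NeZero n] (ℓ : ℕ) [Fact ℓ.Prime] (hℓM : ¬ ℓ ∣ M)
  (hmem : Interface12.TMem n e M) (hgen : Interface12.TGenBase n e)
  {x : X0.FF M} {hx : IsGen Qbar x}
  (T : TwoCharts (padicPlace ℓ) hx ↥(modularFunctionFieldFullC (kA (padicPlace ℓ)) M))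
  (hS0 : CoeffChart (F₀ := modularFunctionFieldFull M) T.S0)
  (hS1 : CoeffChart (F₀ := modularFunctionFieldFull M) T.S1)
  (hs0 : T.S0.s = Interface12.tF M hmem)
  (peel0 : ∀ (P : Place Qbar (X0.FF M)) (hP : T.S0.InChart P), T.S0.PeelA P hP)
  (peel1 : ∀ (P : Place Qbar (X0.FF M)) (hP : T.S1.InChart P), T.S1.PeelA P hP)

/-- from a two-chart model and the remaining F0 obligations. -/
theorem kumFlat_of_twoCharts {m : ℕ} [NeZero m]
    (hsurj : Function.Surjective (Dat n e ℓ hℓM hmem hgen T hS0 hS1 hs0 peel0 peel1).red)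
    (C : ChartCover (Dat n e ℓ hℓM hmem hgen T hS0 hS1 hs0 peel0 peel1) (Fin 2))
    (Bad : Finset (Place (kA (padicPlace ℓ)) ↥(modularFunctionFieldFullC (kA (padicPlace ℓ)) M)))
    (hunif : ∀ Q, Q ∉ Bad →
      ∃ u : (Dat n e ℓ hℓM hmem hgen T hS0 hS1 hs0 peel0 peel1).G,
        (Dat n e ℓ hℓM hmem hgen T hS0 hS1 hs0 peel0 peel1).PoleFree (u : X0.FF M) Q ∧
        Q.ord ((Dat n e ℓ hℓM hmem hgen T hS0 hS1 hs0 peel0 peel1).red u) = 1 ∧
        ∀ γ ∈ Iv ℓ, arithmeticGalois (modularFunctionFieldFull M) γ • (u : X0.FF M)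
          = (u : X0.FF M))
    (y : JZero M) (hy : ∀ σ : GQ, σ • (m • y) = m • y) :
    HasFlatModel (ratLocalizedAt ℓ) Qb GQ (KumMod M m) (kumAct y hy) := by
  haveI : IsAlgClosed (kA (padicPlace ℓ)) :=
    Fermat.Agent.ES.KRON.KronInst10.isAlgClosed_residueField (padicPlace ℓ)
  haveI : Infinite (kA (padicPlace ℓ)) := inferInstance
  exact kumFlat_of_redDatum
    (Dat n e ℓ hℓM hmem hgen T hS0 hS1 hs0 peel0 peel1) rfl hx hsurj C
    (fun γ hγ P => Fermat.Agent.FF.IFACE.GalDatum1.r_smul_of_mem_inertia n e ℓ hℓM hmem hgen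
      (padicPlace ℓ) (liesOverPrime (ℓ := ℓ)) T hS0 hS1 hs0 peel0 peel1 hγ P)
    Bad hunif y hy

end TwoCharts

variable {ℓ : ℕ} [Fact ℓ.Prime]

/-- at every level `M` with a Hauptmodul base, `ℓ ∤ M`. -/
theorem kumFlat_of_level {M : ℕ} [NeZero M] (hℓM : ¬ ℓ ∣ M)
    (n e : ℕ) [NeZero n] (hb : BaseHyp n e) (hnM : n ∣ M) {m : ℕ} [NeZero m]
    (y : JZero M) (hy : ∀ σ : GQ, σ • (m • y) = m • y) :
    HasFlatModel (ratLocalizedAt ℓ) Qb GQ (KumMod M m) (kumAct y hy) := by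
  obtain ⟨x, hx, T, hS0, hS1, hs0, peel0, peel1⟩ :=
    Fermat.Agent.ES.TOP.ModelAtFinal8.modelAt ℓ (Fact.out : ℓ.Prime) (padicPlace ℓ)
      (liesOverPrime (ℓ := ℓ)) n e hb M hnM hℓM
  obtain ⟨Bad, hBad⟩ := Fermat.Agent.FF.FINAL.HUnif0.hUnif ℓ n e hℓM (tMem_of_dvd hb hnM)
    (tGenBase' hb) T hS0 hS1 hs0 peel0 peel1
  exact kumFlat_of_twoCharts n e ℓ hℓM (tMem_of_dvd hb hnM) (tGenBase' hb) T hS0 hS1 hs0 peel0
    peel1
    (Fermat.Agent.FF.IFACE.NSInst9.red_surjective n e ℓ hℓM (tMem_of_dvd hb hnM) (tGenBase' hb)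
      (padicPlace ℓ) (liesOverPrime (ℓ := ℓ)) T hS0 hS1 hs0 peel0 peel1)
    (Fermat.Agent.FF.IFACE.NSInst9.chartCover n e ℓ hℓM (tMem_of_dvd hb hnM) (tGenBase' hb)
      (padicPlace ℓ) (liesOverPrime (ℓ := ℓ)) T hS0 hS1 hs0 peel0 peel1)
    Bad hBad y hy

/-- at the auxiliary level. -/
theorem kumFlat_auxLevel (N : ℕ) [NeZero N] (hℓN : ¬ ℓ ∣ N) {m : ℕ} [NeZero m] :
    haveI := LevelDegree17.neZero_auxLevel ℓ N
    ∀ (y : JZero (auxLevel ℓ N)) (hy : ∀ σ : GQ, σ • (m • y) = m • y),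
      HasFlatModel (ratLocalizedAt ℓ) Qb GQ (KumMod (auxLevel ℓ N) m) (kumAct y hy) := by
  haveI := LevelDegree17.neZero_auxLevel ℓ N
  intro y hy
  have hℓM : ¬ ℓ ∣ auxLevel ℓ N := not_dvd_auxLevel (Fact.out : ℓ.Prime) hℓN
  by_cases h2 : ℓ = 2
  · haveI : NeZero 9 := ⟨by norm_num⟩
    exact kumFlat_of_level hℓM 9 3 baseHyp_nine
      (Fermat.Agent.ES.TOP.AuxBase8.nine_dvd_auxLevel N h2) y hy
  · haveI : NeZero 4 := ⟨by norm_num⟩
    exact kumFlat_of_level hℓM 4 8 baseHyp_four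
      (Fermat.Agent.ES.TOP.AuxBase8.four_dvd_auxLevel N h2) y hy

/-! ### Level transfer -/

section Transfer

variable {N M : ℕ} [NeZero N] [NeZero M] {m : ℕ} [NeZero m]

/-- `π^*` on the Kummer modules. -/
def kumPullback (h : N ∣ M) : KumMod N m →+ KumMod M m :=
  AddMonoidHom.prodMap (AddMonoidHom.id (ZMod m)) (torsPullback h (m : ℤ))

lemma kumPullback_apply (h : N ∣ M) (e : KumMod N m) :
    kumPullback h e = (e.1, torsPullback h (m : ℤ) e.2) := rfl

lemma hy_pullback (h : N ∣ M) (y : JZero N) (hy : ∀ σ : GQ, σ • (m • y) = m • y) :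
    ∀ σ : GQ, σ • (m • levelPullback h y) = m • levelPullback h y := by
  intro σ
  rw [← map_nsmul, ← levelPullback_smul, hy σ]

lemma kumPullback_act (h : N ∣ M) (y : JZero N) (hy : ∀ σ : GQ, σ • (m • y) = m • y) (σ : GQ)
    (e : KumMod N m) :
    kumPullback h (kumAct y hy σ e)
      = kumAct (levelPullback h y) (hy_pullback h y hy) σ (kumPullback h e) := by
  refine Prod.ext rfl (Subtype.ext ?_)
  show levelPullback h ((kumAct y hy σ e).2 : JZero N) = _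
  rw [kumAct_snd, kumAct_snd, Submodule.coe_add, Submodule.coe_add, map_add, coe_torsAct,
    coe_torsAct, levelPullback_smul, Submodule.coe_smul_of_tower, Submodule.coe_smul_of_tower,
    map_nsmul, coe_kumCoc, coe_kumCoc, map_sub, levelPullback_smul]
  rfl

/-- Level transfer of the flatness of the Kummer module. -/
theorem kumFlat_of_dvd (h : N ∣ M)
    (hinj : ∀ x : JZero N, ((m : ℤ)) • x = 0 → levelPullback h x = 0 → x = 0)
    (y : JZero N) (hy : ∀ σ : GQ, σ • (m • y) = m • y)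
    (hM : HasFlatModel (ratLocalizedAt ℓ) Qb GQ (KumMod M m)
      (kumAct (levelPullback h y) (hy_pullback h y hy))) :
    HasFlatModel (ratLocalizedAt ℓ) Qb GQ (KumMod N m) (kumAct y hy) := by
  refine HasFlatModel.of_injective (fixedInFrac_ratLocalizedAt ℓ) hM (kumPullback h) ?_ ?_
  · intro a b hab
    rw [kumPullback_apply, kumPullback_apply] at hab
    have h1 : a.1 = b.1 := (Prod.ext_iff.1 hab).1
    have h2 : torsPullback h (m : ℤ) a.2 = torsPullback h (m : ℤ) b.2 := (Prod.ext_iff.1 hab).2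
    refine Prod.ext h1 ?_
    have h3 : torsPullback h (m : ℤ) (a.2 - b.2) = 0 := by rw [map_sub, h2, sub_self]
    have h4 : (a.2 - b.2 : Submodule.torsionBy ℤ (JZero N) (m : ℤ)) = 0 := by
      apply Subtype.ext
      have hx' : levelPullback h ((a.2 - b.2 : Submodule.torsionBy ℤ (JZero N) (m : ℤ)) : JZero N)
          = 0 := congrArg Subtype.val h3
      have hxt := (a.2 - b.2).2
      rw [Submodule.mem_torsionBy_iff] at hxt
      exact hinj _ hxt hx'
    exact sub_eq_zero.mp h4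
  · intro σ e
    exact kumPullback_act h y hy σ e

end Transfer

/-- **The Kummer extension module of `J₀(N)` is finite flat over `ℤ_(ℓ)`, `ℓ ∤ N`.** -/
theorem kumFlat (N : ℕ) [NeZero N] (hℓN : ¬ ℓ ∣ N) {m : ℕ} [NeZero m]
    (y : JZero N) (hy : ∀ σ : GQ, σ • (m • y) = m • y) :
    HasFlatModel (ratLocalizedAt ℓ) Qb GQ (KumMod N m) (kumAct y hy) := by
  haveI := LevelDegree17.neZero_auxLevel ℓ N
  refine kumFlat_of_dvd (dvd_auxLevel ℓ N) ?_ y hy (kumFlat_auxLevel N hℓN _ _)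
  intro x hx hpx
  have hpos : 0 < m := Nat.pos_of_ne_zero (NeZero.ne m)
  refine levelPullback_auxLevel_eq_zero ℓ N m hpos x ?_ hpx
  rw [← natCast_zsmul]
  exact hx

end Fermat.Agent.MZ.ORDL.KumLevel6
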