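/-
Programme MZ (S15), chapter ORDL, file KumUnit6 (helper6): **Kummer cocycles of division points have
unit radicals** (flat ⇒ peu ramifié for the Kummer extension).

`y : JZero N` with `m • y` fixed by `G_ℚ` (`ℓ ∤ N`), `T ≤ JZero N` a subgroup killed by `m` and stable
under `Iq ℓ`, `j : JZero N → ℚ̄_ℓ` a character of `T`, equivariant for `Iq ℓ`, with
`τ y − y ∈ T` for all `τ ∈ Iq ℓ`.  Then `τ ↦ j (τ y − y)` has a UNIT radical:

  **`exists_unit_division`** : `∃ u, ‖u‖ = 1 ∧ ∀ τ ∈ Iq ℓ, τ u = j (rq ℓ τ • y - y) * u`.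

(`m • y = 0`, i.e. `y ∈ J[m]`: the extension `T → J[m] → J[m]/T` has unit Kummer classes.)
Proof: `KumLevel6.kumFlat` + `LocalPoints6.hasFlatModel_local` + `PeuLocal7.exists_unit_kummer`.
-/
import Mathlib
import Fermat.Agent.MZ.ORDL.KumLevel6
import Fermat.Agent.TW.FLAT.PeuLocal7

set_option autoImplicit false
set_option linter.unusedSectionVars false
set_option linter.style.longLine false

open AlgebraicCurve ModularCurve

namespace Fermat.Agent.MZ.ORDL.KumUnit6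

open Fermat.Agent.TW.FLAT.Points6 Fermat.Agent.TW.FLAT.FlatModule6 Fermat.Agent.TW.LOC.Defs2
open Fermat.Agent.FF.LEVEL.Transfer0 Fermat.Agent.TW.FLAT.LocalPoints6
open Fermat.Agent.MZ.ORDL.KumExt6 Fermat.Agent.MZ.ORDL.KumLevel6 GaloisRep

noncomputable section

variable {ℓ : ℕ} [Fact ℓ.Prime] {N : ℕ} [NeZero N] {m : ℕ} [NeZero m]

/-- the local flat model of the Kummer extension module. -/
theorem kumFlat_local (hℓN : ¬ ℓ ∣ N) (y : JZero N) (hy : ∀ σ : GQ, σ • (m • y) = m • y) :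
    HasFlatModel ℤ_[ℓ] (PadicAlgCl ℓ) (Gq ℓ) (KumMod N m) (fun τ => kumAct y hy (rq ℓ τ)) :=
  hasFlatModel_local ℓ (kumFlat N hℓN y hy)

/-- **Kummer cocycles of division points have unit radicals.** -/
theorem exists_unit_division (hℓN : ¬ ℓ ∣ N) (hm1 : 1 < m)
    (y : JZero N) (hy : ∀ σ : GQ, σ • (m • y) = m • y)
    (T : AddSubgroup (JZero N)) (hTm : ∀ t ∈ T, m • t = 0)
    (hTI : ∀ τ ∈ Iq ℓ, ∀ t ∈ T, rq ℓ τ • t ∈ T)
    (j : JZero N → PadicAlgCl ℓ) (hj1 : j 0 = 1)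
    (hjmul : ∀ a ∈ T, ∀ b ∈ T, j (a + b) = j a * j b)
    (hjeq : ∀ τ ∈ Iq ℓ, ∀ t ∈ T, j (rq ℓ τ • t) = τ (j t))
    (hyT : ∀ τ ∈ Iq ℓ, rq ℓ τ • y - y ∈ T) :
    ∃ u : PadicAlgCl ℓ, ‖u‖ = 1 ∧ ∀ τ ∈ Iq ℓ, τ u = j (rq ℓ τ • y - y) * u := by
  have h := kumFlat_local (ℓ := ℓ) hℓN y hy
  -- the subgroup `0 × T` of the Kummer module
  let T' : AddSubgroup (KumMod N m) :=
    { carrier := {e | e.1 = 0 ∧ (e.2 : JZero N) ∈ T}
      zero_mem' := ⟨rfl, T.zero_mem⟩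
      add_mem' := fun {a b} ha hb => ⟨by rw [Prod.fst_add, ha.1, hb.1, add_zero], by
        rw [Prod.snd_add, Submodule.coe_add]
        exact T.add_mem ha.2 hb.2⟩
      neg_mem' := fun {a} ha => ⟨by rw [Prod.fst_neg, ha.1, neg_zero], by
        rw [Prod.snd_neg, Submodule.coe_neg]
        exact T.neg_mem ha.2⟩ }
  have hact0 : ∀ (τ : Gq ℓ) (e : KumMod N m), e.1 = 0 →
      ((kumAct y hy (rq ℓ τ) e).2 : JZero N) = rq ℓ τ • (e.2 : JZero N) := by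
    intro τ e he
    rw [kumAct_snd, he, ZMod.val_zero, zero_smul, add_zero, coe_torsAct]
  have hT' : ∀ τ ∈ Iq ℓ, ∀ t ∈ T', kumAct y hy (rq ℓ τ) t ∈ T' := by
    intro τ hτ t ht
    refine ⟨ht.1, ?_⟩
    rw [hact0 τ t ht.1]
    exact hTI τ hτ _ ht.2
  let j' : KumMod N m → PadicAlgCl ℓ := fun e => j (e.2 : JZero N)
  have hbase : ∀ τ : Gq ℓ, kumAct y hy (rq ℓ τ) (kumBase (N := N) (n := m)) - kumBase
      = kumIncl (kumCoc y hy (rq ℓ τ)) := fun τ => kumAct_base_sub y hy hm1 (rq ℓ τ)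
  obtain ⟨u, hu, huσ⟩ := Fermat.Agent.TW.FLAT.PeuLocal7.exists_unit_kummer h T' hT' j'
    (by show j ((0 : Submodule.torsionBy ℤ (JZero N) (m : ℤ)) : JZero N) = 1
        rw [Submodule.coe_zero, hj1])
    (fun a ha b hb => by
      show j ((a + b).2 : JZero N) = j (a.2 : JZero N) * j (b.2 : JZero N)
      rw [Prod.snd_add, Submodule.coe_add]
      exact hjmul _ ha.2 _ hb.2)
    (fun τ hτ t ht => by
      show j ((kumAct y hy (rq ℓ τ) t).2 : JZero N) = τ (j (t.2 : JZero N))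
      rw [hact0 τ t ht.1]
      exact hjeq τ hτ _ ht.2)
    kumBase
    (fun τ hτ => by
      rw [hbase τ]
      exact ⟨rfl, hyT τ hτ⟩)
  refine ⟨u, hu, fun τ hτ => ?_⟩
  have := huσ τ hτ
  rw [hbase τ] at this
  exact this

end

end Fermat.Agent.MZ.ORDL.KumUnit6
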