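/-
Programme MZ, area ORDL, file OrdChain3 (helper3): **ordinarity of a flat module with a filtration
whose inertia constituents are `1` or `ω`, arbitrary length** (`p` odd).

Vocabulary of `Fermat/Agent/TW/FLAT/Ordinary7.lean` (`IsCycExp`, `cycSub h n`, `augI act`).

* `StepTriv act N N'` : inertia acts trivially on `N'/N`  (`act σ m - m ∈ N` for `m ∈ N'`);
* `StepCyc act n N N'` : inertia acts on `N'/N` through the cyclotomic exponent modulo `n`;
* **`augI_le_cycSub_of_chain`** : `M` flat over `ℤ_p` (`p ≠ 2`), killed by `n`, with a chain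
  `⊥ = F 0, F 1, …, F k = ⊤` of subgroups each of whose steps is `StepTriv` or `StepCyc`
  ⟹ `augI act ≤ cycSub h n`  (inertia acts on `aug_I M` through the cyclotomic character, and of
  course trivially on `M / aug_I M`);
* `act_eq_nsmul_of_chain` : the pointwise reformulation.
-/
import Mathlib
import Fermat.Agent.TW.FLAT.Ordinary7

set_option autoImplicit false

namespace Fermat.Agent.MZ.ORDL.OrdChain3

open Fermat.Agent.TW.FLAT.Points6 Fermat.Agent.TW.FLAT.FlatIntrinsic7
  Fermat.Agent.TW.FLAT.LocalPoints6 Fermat.Agent.TW.LOC.Defs2 Fermat.Agent.TW.FLAT.Ordinary7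

noncomputable section

variable {p : ℕ} [Fact p.Prime] {M : Type} [AddCommGroup M]

/-- Inertia acts trivially on `N' / N`. -/
def StepTriv (act : Gq p → M → M) (N N' : AddSubgroup M) : Prop :=
  ∀ σ ∈ Iq p, ∀ m ∈ N', act σ m - m ∈ N

/-- Inertia acts on `N' / N` through the cyclotomic exponent modulo `n`. -/
def StepCyc (act : Gq p → M → M) (n : ℕ) (N N' : AddSubgroup M) : Prop :=
  ∀ σ ∈ Iq p, ∀ c : ℕ, IsCycExp n σ c → ∀ m ∈ N', act σ m - c • m ∈ N

variable {act : Gq p → M → M}

/-- **Ordinarity from a chain of arbitrary length** (`p` odd). -/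
theorem augI_le_cycSub_of_chain (h : HasFlatModel ℤ_[p] (PadicAlgCl p) (Gq p) M act)
    (hp2 : p ≠ 2) (n : ℕ) [NeZero n] (hn : ∀ m : M, n • m = 0)
    (F : ℕ → AddSubgroup M) (k : ℕ) (h0 : F 0 = ⊥) (hk : F k = ⊤)
    (hstep : ∀ i < k, StepTriv act (F i) (F (i + 1)) ∨ StepCyc act n (F i) (F (i + 1))) :
    augI act ≤ cycSub h n := by
  have key : ∀ i ≤ k, F i ⊓ augI act ≤ cycSub h n := by
    intro i
    induction i with
    | zero =>
      intro _
      rw [h0]
      rintro x ⟨hx, -⟩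
      have hx0 : x = 0 := (AddSubgroup.mem_bot (G := M)).1 hx
      rw [hx0]
      exact AddSubgroup.zero_mem _
    | succ i ih =>
      intro hi
      have hi' : i < k := hi
      rcases hstep i hi' with ht | hc
      · exact inf_augI_le_step_triv h hp2 n (ih hi'.le) ht
      · exact inf_augI_le_step_cyc h hp2 n hn (ih hi'.le) hc
  intro x hx
  refine key k le_rfl ⟨?_, hx⟩
  rw [hk]
  exact AddSubgroup.mem_top x

/-- Pointwise reformulation: inertia acts through `ω` on every `τ y - y`. -/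
theorem act_eq_nsmul_of_chain (h : HasFlatModel ℤ_[p] (PadicAlgCl p) (Gq p) M act)
    (hp2 : p ≠ 2) (n : ℕ) [NeZero n] (hn : ∀ m : M, n • m = 0)
    (F : ℕ → AddSubgroup M) (k : ℕ) (h0 : F 0 = ⊥) (hk : F k = ⊤)
    (hstep : ∀ i < k, StepTriv act (F i) (F (i + 1)) ∨ StepCyc act n (F i) (F (i + 1)))
    {σ τ : Gq p} (hσ : σ ∈ Iq p) (hτ : τ ∈ Iq p) {c : ℕ} (hc : IsCycExp n σ c) (y : M) :
    act σ (act τ y - y) = c • (act τ y - y) :=
  augI_le_cycSub_of_chain h hp2 n hn F k h0 hk hstep (act_sub_mem_augI hτ y) σ hσ c hc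

end

end Fermat.Agent.MZ.ORDL.OrdChain3
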