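/-
Programme MZ, area ORDL, file OrdTwo3 (helper3): **ordinarity at `p = 2`**: a flat module over `ℤ_2` on
which inertia acts unipotently (a chain with trivial steps, e.g. steps of order `2`) is ordinary:
`aug_I M ≤ M^{I = cyclotomic}`.  (The case `p` odd, with steps `1` or `ω`, is `OrdChain3`.)

Method (no induction on group schemes, no closures/quotients of Hopf algebras): for a good model `H`
(`FlatIntrinsic7.exists_good`), `C = connPts(H)`, `C' = connPts(H^D)`, `multPts = C'^⊥`: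
* `cartierPairing_eq_sum` : the Cartier pairing in a basis, `⟨x, φ⟩ = ∑ x (h_i) φ (h_i^*)`;
* `exists_coords` : coordinates `f j` on the closure of a Galois-stable subgroup `S` of points
  (`Closure6.evFam_quot_injective`): their values at `S` are `Ω`-linearly independent and they
  generate the functions on `S` over `R`;
* `norm_cartierPairing_sub_one_lt` (**Lemma U**) : if `x ∈ C` and `⟨σ x, φ⟩ = ⟨x, φ⟩` for all
  `σ ∈ I`, `φ ∈ C'`, then `‖⟨x, φ⟩ - 1‖ < ‖p‖` for `φ ∈ C'` (write `⟨y, φ⟩ = ∑_j y (g_j) φ (f_j)` on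
  `G × C'`; the `x (g_j)` are inertia-fixed, so `x (g_j) - ε (g_j) ∈ p A` by
  `UnramFixed4.norm_le_norm_q_of_fixed`, and `φ (f_j) - ε (f_j) ∈ m_A`);
* `eq_one_of_pow_two_pow_eq_one` : a `2`-power root of unity `ζ` with `‖ζ - 1‖ < ‖2‖` is `1`;
* `mem_multPts_of_step` : `x ∈ C`, `x ^ (2 ^ r) = 1`, `σ • x * x⁻¹ ∈ multPts` for all `σ ∈ I`
  ⟹ `x ∈ multPts`;
* **`augI_le_cycSub_two`** : `M` flat over `ℤ_2`, killed by `2 ^ r`, with a chain
  `⊥ = F 0, …, F k = ⊤` whose steps are `StepTriv` ⟹ `augI act ≤ cycSub h (2 ^ r)`;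
  `stepTriv_of_stepCyc_two`, `augI_le_cycSub_two'` (steps `StepTriv`, or `StepCyc` of index `≤ 2`);
* **`augI_le_cycSub_of_chain_prime`** : the uniform statement for every prime `p` (steps trivial, or
  cyclotomic of index `≤ p`; `M` killed by `p ^ r`).
-/
import Mathlib
import Fermat.Agent.TW.FLAT.Ordinary7
import Fermat.Agent.MZ.ORDL.OrdChain3

set_option autoImplicit false
set_option linter.style.haveILetI false

open WithConv TensorProduct

namespace Fermat.Agent.MZ.ORDL.OrdTwo3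

open Fermat.Agent.TW.FLAT.Points6 Fermat.Agent.TW.FLAT.ConnEt7
  Fermat.Agent.TW.FLAT.MultPart7 Fermat.Agent.TW.FLAT.CartierDual7
  Fermat.Agent.TW.FLAT.CartierPairing7 Fermat.Agent.TW.FLAT.CartierPerfect7
  Fermat.Agent.TW.FLAT.Mult7 Fermat.Agent.TW.FLAT.IntrinsicLocal7
  Fermat.Agent.TW.FLAT.Descent6 Fermat.Agent.TW.FLAT.Closure6
  Fermat.Agent.TW.FLAT.LocalPoints6 Fermat.Agent.TW.LOC.Defs2
  Fermat.Agent.TW.FLAT.FlatIntrinsic7 Fermat.Agent.TW.FLAT.Ordinary7
  Fermat.Agent.MZ.ORDL.OrdChain3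
open scoped Fermat.Agent.TW.FLAT.CartierDual7

noncomputable section

section BasisFormula

variable {R H B : Type*} [CommRing R] [CommRing H] [Bialgebra R H] [Module.Free R H]
  [Module.Finite R H] [CommRing B] [Algebra R B]

/-- **The Cartier pairing in a basis**: `⟨x, φ⟩ = ∑ x (h_i) φ (h_i^*)`. -/
theorem cartierPairing_eq_sum {ι : Type*} [Fintype ι] (h : Module.Basis ι R H)
    (x : WithConv (H →ₐ[R] B)) (φ : WithConv (CDual R H →ₐ[R] B)) :
    cartierPairing x φ = ∑ i, x (h i) * φ (toConv (h.coord i)) := by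
  classical
  unfold cartierPairing
  set ξ : B ⊗[R] CDual R H := ∑ i, x (h i) ⊗ₜ[R] (toConv (h.coord i) : CDual R H) with hξdef
  have hξ : thetaD R H B ξ = toConv x.ofConv.toLinearMap := by
    apply WithConv.ofConv_injective
    ext a
    rw [hξdef, map_sum]
    have h1 : ∀ i, (thetaD R H B (x (h i) ⊗ₜ[R] (toConv (h.coord i) : CDual R H))) a =
        (h.coord i a) • x (h i) := fun i => rfl
    have h2 : (∑ i, thetaD R H B (x (h i) ⊗ₜ[R] (toConv (h.coord i) : CDual R H))).ofConv a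
        = ∑ i, (thetaD R H B (x (h i) ⊗ₜ[R] (toConv (h.coord i) : CDual R H))) a := by
      rw [WithConv.ofConv_sum, LinearMap.sum_apply]
    rw [h2]
    simp only [h1]
    change _ = x a
    conv_rhs => rw [← h.sum_repr a, map_sum]
    refine Finset.sum_congr rfl fun i _ => ?_
    rw [map_smul]
    rfl
  have h3 : pair R H B x.ofConv.toLinearMap φ.ofConv.toLinearMap =
      pair R H B (thetaD R H B ξ).ofConv φ.ofConv.toLinearMap := by rw [hξ]
  rw [h3, pair_thetaD, hξdef, map_sum]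
  rfl

end BasisFormula

section Coords

variable {R : Type*} [CommRing R] [IsDomain R] [IsPrincipalIdealRing R]
  {D : Type*} [CommRing D] [HopfAlgebra R D] [Module.Free R D] [Module.Finite R D]
  {Ω : Type*} [Field Ω] [Algebra R Ω] [FaithfulSMul R Ω]
  {Γ : Type*} [Group Γ] [MulSemiringAction Γ Ω] [SMulCommClass Γ R Ω]

/-- **Coordinates on the closure of a Galois-stable subgroup of points**: finitely many functions
`f j` whose values at the points of `S` are `Ω`-linearly independent, and which generate (over `R`)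
all functions restricted to `S`. -/
theorem exists_coords (hF : FixedInFrac R Ω Γ) (S : Subgroup (WithConv (D →ₐ[R] Ω)))
    (hS : ∀ (σ : Γ), ∀ f ∈ S, σ • f ∈ S) :
    ∃ (m : ℕ) (f : Fin m → D) (r : Fin m → (D →ₗ[R] R)),
      (∀ φ ∈ S, ∀ d : D, φ d = ∑ j, algebraMap R Ω (r j d) * φ (f j)) ∧
      (∀ ω : Fin m → Ω, (∀ φ ∈ S, ∑ j, ω j * φ (f j) = 0) → ∀ j, ω j = 0) := by
  classical
  set J : Ideal D := closureIdeal S with hJ
  haveI htf : Module.IsTorsionFree R (D ⧸ J) := quot_closureIdeal_isTorsionFree (R := R) S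
  haveI hfin : Module.Finite R (D ⧸ J) :=
    Module.Finite.of_surjective (Ideal.Quotient.mkₐ R J).toLinearMap
      (Ideal.Quotient.mkₐ_surjective R J)
  haveI hfree : Module.Free R (D ⧸ J) := inferInstance
  let b := Module.finBasis R (D ⧸ J)
  have hlift : ∀ j, ∃ d : D, Ideal.Quotient.mk J d = b j := fun j =>
    Ideal.Quotient.mk_surjective (b j)
  choose f hf using hlift
  refine ⟨_, f, fun j => (b.coord j) ∘ₗ (Ideal.Quotient.mkₐ R J).toLinearMap, ?_, ?_⟩
  · intro φ hφ d
    have h1 : d - ∑ j, (b.coord j (Ideal.Quotient.mk J d)) • f j ∈ J := by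
      rw [← Ideal.Quotient.eq_zero_iff_mem, map_sub, sub_eq_zero]
      conv_lhs => rw [← b.sum_repr (Ideal.Quotient.mk J d)]
      rw [map_sum]
      refine Finset.sum_congr rfl fun j _ => ?_
      rw [← hf j]
      rfl
    have h2 := (mem_closureIdeal S _).1 h1 φ hφ
    have h3 : φ (d - ∑ j, (b.coord j (Ideal.Quotient.mk J d)) • f j) =
        φ d - ∑ j, algebraMap R Ω (b.coord j (Ideal.Quotient.mk J d)) * φ (f j) := by
      change φ.ofConv (d - ∑ j, (b.coord j (Ideal.Quotient.mk J d)) • f j) = _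
      rw [map_sub, map_sum]
      congr 1
      refine Finset.sum_congr rfl fun j _ => ?_
      rw [map_smul, Algebra.smul_def]
    rw [h3, sub_eq_zero] at h2
    exact h2
  · intro ω hω
    set w : Ω ⊗[R] (D ⧸ J) := ∑ j, ω j ⊗ₜ[R] b j with hw
    have hev : evFam (quotFam (subFam S)) w = 0 := by
      funext k
      rw [hw, map_sum, Finset.sum_apply, Pi.zero_apply, ← hω k.1 k.2]
      refine Finset.sum_congr rfl fun j _ => ?_
      rw [evFam_tmul, ← hf j]
      rfl
    have hw0 : w = 0 := by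
      have hinj := evFam_quot_injective hF (stableFam_subFam S hS)
      exact hinj (by rw [hev, map_zero])
    have hli := (Algebra.TensorProduct.basis Ω b).linearIndependent
    rw [Fintype.linearIndependent_iff] at hli
    refine hli ω ?_
    rw [← hw0, hw]
    refine Finset.sum_congr rfl fun j _ => ?_
    rw [Algebra.TensorProduct.basis_apply, TensorProduct.smul_tmul', smul_eq_mul, mul_one]

end Coords

section Local

variable {p : ℕ} [Fact p.Prime]

attribute [local instance] Fermat.Agent.TW.FLAT.IntrinsicLocal7.algZp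

/-- A finite sum of elements of norm `< c` has norm `< c` (`ℚ̄_p` is non-archimedean). -/
theorem norm_sum_lt_of_forall_lt {ι : Type*} (s : Finset ι) (t : ι → PadicAlgCl p) {c : ℝ}
    (hc : 0 < c) (h : ∀ j ∈ s, ‖t j‖ < c) : ‖∑ j ∈ s, t j‖ < c := by
  classical
  induction s using Finset.induction_on with
  | empty => simpa using hc
  | insert a s ha ih =>
    rw [Finset.sum_insert ha]
    refine lt_of_le_of_lt (PadicAlgCl.isNonarchimedean p _ _) (max_lt ?_ ?_)
    · exact h a (Finset.mem_insert_self a s)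
    · exact ih (fun j hj => h j (Finset.mem_insert_of_mem hj))

variable {H : Type*} [CommRing H] [HopfAlgebra ℤ_[p] H] [Coalgebra.IsCocomm ℤ_[p] H]
  [Module.Free ℤ_[p] H] [Module.Finite ℤ_[p] H]

/-- The connected points of the dual are stable under `Gq p`. -/
theorem smul_mem_connPts_local {H' : Type*} [CommRing H'] [HopfAlgebra ℤ_[p] H']
    [Algebra.IsIntegral ℤ_[p] H'] (σ : Gq p)
    {f : WithConv (H' →ₐ[ℤ_[p]] PadicAlgCl p)} (hf : f ∈ connPts (unitBall p)) :
    σ • f ∈ connPts (unitBall p) :=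
  smul_mem_connPts (K := ℚ_[p]) (unitBall p) (mem_decompositionSubgroup p σ) hf

theorem norm_sub_counit_lt_one {H' : Type*} [CommRing H'] [HopfAlgebra ℤ_[p] H']
    [Algebra.IsIntegral ℤ_[p] H']
    {f : WithConv (H' →ₐ[ℤ_[p]] PadicAlgCl p)} (hf : f ∈ connPts (unitBall p)) (a : H') :
    ‖f a - algebraMap ℤ_[p] (PadicAlgCl p) (Coalgebra.counit a)‖ < 1 :=
  (mem_nonunits_unitBall_iff p).1 ((mem_connPts_iff (unitBall p) f).1 hf a)

/-- **Lemma U**: a connected point which is inertia-invariant modulo the orthogonal of the connected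
points `C'` of the dual pairs with `C'` into `1 + p m_A`. -/
theorem norm_cartierPairing_sub_one_lt
    {x : WithConv (H →ₐ[ℤ_[p]] PadicAlgCl p)} (hx : x ∈ connPts (unitBall p))
    (hstep : ∀ σ ∈ Iq p, ∀ φ ∈ connPts (H := CDual ℤ_[p] H) (unitBall p),
      cartierPairing (σ • x) φ = cartierPairing x φ)
    {φ : WithConv (CDual ℤ_[p] H →ₐ[ℤ_[p]] PadicAlgCl p)}
    (hφ : φ ∈ connPts (H := CDual ℤ_[p] H) (unitBall p)) :
    ‖cartierPairing x φ - 1‖ < ‖((p : ℕ) : PadicAlgCl p)‖ := by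
  classical
  set S : Subgroup (WithConv (CDual ℤ_[p] H →ₐ[ℤ_[p]] PadicAlgCl p)) :=
    connPts (H := CDual ℤ_[p] H) (unitBall p) with hSdef
  have hS : ∀ (σ : Gq p), ∀ f ∈ S, σ • f ∈ S := fun σ f hf => smul_mem_connPts_local σ hf
  obtain ⟨m, f, r, hcoord, hindep⟩ := exists_coords (fixedInFrac_padicInt p) S hS
  let h := Module.finBasis ℤ_[p] H
  let d : Fin (Module.finrank ℤ_[p] H) → CDual ℤ_[p] H := fun i => toConv (h.coord i)
  let g : Fin m → H := fun j => ∑ i, (r j (d i)) • h i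
  -- the pairing on `G × S` in the coordinates `g`, `f`
  have hform : ∀ (y : WithConv (H →ₐ[ℤ_[p]] PadicAlgCl p)), ∀ ψ ∈ S,
      cartierPairing y ψ = ∑ j, y (g j) * ψ (f j) := by
    intro y ψ hψ
    rw [cartierPairing_eq_sum h y ψ]
    have h1 : ∀ j, y (g j) = ∑ i, algebraMap ℤ_[p] (PadicAlgCl p) (r j (d i)) * y (h i) := by
      intro j
      change y.ofConv (∑ i, (r j (d i)) • h i) = _
      rw [map_sum]
      refine Finset.sum_congr rfl fun i _ => ?_
      rw [map_smul, Algebra.smul_def]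
    simp only [h1, Finset.sum_mul]
    rw [Finset.sum_comm]
    refine Finset.sum_congr rfl fun i _ => ?_
    rw [hcoord ψ hψ (d i), Finset.mul_sum]
    refine Finset.sum_congr rfl fun j _ => ?_
    ring
  -- the values `x (g j)` are fixed by inertia
  have hfix : ∀ σ ∈ Iq p, ∀ j, σ (x (g j)) = x (g j) := by
    intro σ hσ
    have h1 : ∀ ψ ∈ S, ∑ j, (σ (x (g j)) - x (g j)) * ψ (f j) = 0 := by
      intro ψ hψ
      have h2 := hstep σ hσ ψ hψ
      rw [hform (σ • x) ψ hψ, hform x ψ hψ] at h2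
      simp only [sub_mul, Finset.sum_sub_distrib]
      rw [sub_eq_zero, ← h2]
      refine Finset.sum_congr rfl fun j _ => ?_
      rw [algEquiv_smul_apply]
    have h3 := hindep (fun j => σ (x (g j)) - x (g j)) h1
    intro j
    exact sub_eq_zero.1 (h3 j)
  -- the two families of small elements
  set u : Fin m → PadicAlgCl p := fun j =>
    x (g j) - algebraMap ℤ_[p] (PadicAlgCl p) (Coalgebra.counit (g j)) with hu
  set v : Fin m → PadicAlgCl p := fun j =>
    φ (f j) - algebraMap ℤ_[p] (PadicAlgCl p) (Coalgebra.counit (f j)) with hv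
  have hu1 : ∀ j, ‖u j‖ ≤ ‖((p : ℕ) : PadicAlgCl p)‖ := by
    intro j
    refine Fermat.Agent.TW.LOC.UnramFixed4.norm_le_norm_q_of_fixed p (u j) ?_
      (norm_sub_counit_lt_one hx (g j))
    intro σ hσ
    rw [hu]
    change σ (x (g j) - algebraMap ℤ_[p] (PadicAlgCl p) (Coalgebra.counit (g j))) = _
    rw [map_sub, hfix σ hσ j, IsScalarTower.algebraMap_apply ℤ_[p] ℚ_[p] (PadicAlgCl p),
      AlgEquiv.commutes]
    rfl
  have hv1 : ∀ j, ‖v j‖ < 1 := fun j => norm_sub_counit_lt_one hφ (f j)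
  -- the four evaluations
  have h1S : (1 : WithConv (CDual ℤ_[p] H →ₐ[ℤ_[p]] PadicAlgCl p)) ∈ S := S.one_mem
  have e1 := hform x φ hφ
  have e2 := hform x 1 h1S
  have e3 := hform 1 φ hφ
  have e4 := hform 1 1 h1S
  rw [cartierPairing_one_right] at e2 e4
  rw [cartierPairing_one_left] at e3
  have hone : ∀ {H' : Type _} [CommRing H'] [HopfAlgebra ℤ_[p] H'] (a : H'),
      (1 : WithConv (H' →ₐ[ℤ_[p]] PadicAlgCl p)) a =
        algebraMap ℤ_[p] (PadicAlgCl p) (Coalgebra.counit a) := fun a => rfl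
  have key : cartierPairing x φ - 1 = ∑ j, u j * v j := by
    have : ∑ j, u j * v j = (∑ j, x (g j) * φ (f j)) - (∑ j, x (g j) *
        (1 : WithConv (CDual ℤ_[p] H →ₐ[ℤ_[p]] PadicAlgCl p)) (f j)) -
        (∑ j, (1 : WithConv (H →ₐ[ℤ_[p]] PadicAlgCl p)) (g j) * φ (f j)) +
        (∑ j, (1 : WithConv (H →ₐ[ℤ_[p]] PadicAlgCl p)) (g j) *
        (1 : WithConv (CDual ℤ_[p] H →ₐ[ℤ_[p]] PadicAlgCl p)) (f j)) := by
      rw [← Finset.sum_sub_distrib, ← Finset.sum_sub_distrib, ← Finset.sum_add_distrib]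
      refine Finset.sum_congr rfl fun j _ => ?_
      rw [hu, hv, hone, hone]
      ring
    rw [this, ← e1, ← e2, ← e3, ← e4]
    ring
  rw [key]
  have hp0 : 0 < ‖((p : ℕ) : PadicAlgCl p)‖ := norm_pos_iff.2 (natCast_ne_zero' p)
  refine norm_sum_lt_of_forall_lt _ _ hp0 (fun j _ => ?_)
  rw [norm_mul]
  rcases eq_or_lt_of_le (norm_nonneg (u j)) with h0 | h0
  · rw [← h0, zero_mul]
    exact hp0
  · calc ‖u j‖ * ‖v j‖ < ‖u j‖ * 1 := mul_lt_mul_of_pos_left (hv1 j) h0
      _ = ‖u j‖ := mul_one _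
      _ ≤ _ := hu1 j

end Local

section Two

attribute [local instance] Fermat.Agent.TW.FLAT.IntrinsicLocal7.algZp

theorem norm_two_padicAlgCl : ‖((2 : ℕ) : PadicAlgCl 2)‖ = (2 : ℝ)⁻¹ := by
  have := norm_natCast_p 2
  simpa using this

/-- A `2`-power root of unity which is congruent to `1` modulo `2 m_A` is `1`. -/
theorem eq_one_of_pow_two_pow_eq_one (r : ℕ) (ζ : PadicAlgCl 2) (hζ : ζ ^ (2 ^ r) = 1)
    (h : ‖ζ - 1‖ < ‖((2 : ℕ) : PadicAlgCl 2)‖) : ζ = 1 := by
  induction r generalizing ζ with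
  | zero => simpa using hζ
  | succ r ih =>
    have h2 : ‖((2 : ℕ) : PadicAlgCl 2)‖ ≤ 1 := by
      rw [norm_two_padicAlgCl]
      norm_num
    have h3 : ‖ζ + 1‖ ≤ 1 := by
      have : ζ + 1 = (ζ - 1) + ((2 : ℕ) : PadicAlgCl 2) := by push_cast; ring
      rw [this]
      exact le_trans (PadicAlgCl.isNonarchimedean 2 _ _) (max_le (h.le.trans h2) h2)
    have h1 : ‖ζ ^ 2 - 1‖ < ‖((2 : ℕ) : PadicAlgCl 2)‖ := by
      have : ζ ^ 2 - 1 = (ζ - 1) * (ζ + 1) := by ring
      rw [this, norm_mul]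
      calc ‖ζ - 1‖ * ‖ζ + 1‖ ≤ ‖ζ - 1‖ * 1 :=
            mul_le_mul_of_nonneg_left h3 (norm_nonneg _)
        _ = ‖ζ - 1‖ := mul_one _
        _ < _ := h
    have h4 := ih (ζ ^ 2) (by rw [← pow_mul, ← pow_succ']; exact hζ) h1
    have h5 : (ζ - 1) * (ζ + 1) = 0 := by
      have : (ζ - 1) * (ζ + 1) = ζ ^ 2 - 1 := by ring
      rw [this, h4, sub_self]
    rcases mul_eq_zero.1 h5 with h6 | h6
    · exact sub_eq_zero.1 h6
    · exfalso
      have h7 : ζ - 1 = -((2 : ℕ) : PadicAlgCl 2) := by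
        push_cast
        linear_combination h6
      rw [h7, norm_neg] at h
      exact lt_irrefl _ h

variable {H : Type*} [CommRing H] [HopfAlgebra ℤ_[2] H] [Coalgebra.IsCocomm ℤ_[2] H]
  [Module.Free ℤ_[2] H] [Module.Finite ℤ_[2] H]

/-- **Key step at `p = 2`**: a connected point of `2`-power order which is inertia-invariant modulo
the multiplicative points is a multiplicative point. -/
theorem mem_multPts_of_step {x : WithConv (H →ₐ[ℤ_[2]] PadicAlgCl 2)}
    (hx : x ∈ connPts (unitBall 2)) {r : ℕ} (hxr : x ^ (2 ^ r) = 1)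
    (hstep : ∀ σ ∈ Iq 2, σ • x * x⁻¹ ∈ multPts H (unitBall 2)) :
    x ∈ multPts H (unitBall 2) := by
  intro φ hφ
  refine eq_one_of_pow_two_pow_eq_one r _ (cartierPairing_pow_eq_one x φ _ hxr) ?_
  refine norm_cartierPairing_sub_one_lt hx ?_ hφ
  intro σ hσ ψ hψ
  have h1 : σ • x = (σ • x * x⁻¹) * x := (inv_mul_cancel_right _ _).symm
  rw [h1, cartierPairing_mul_left, hstep σ hσ ψ hψ, one_mul]

end Two

section Module

attribute [local instance] Fermat.Agent.TW.FLAT.IntrinsicLocal7.algZp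

variable {M : Type} [AddCommGroup M] {act : Gq 2 → M → M}

/-- **Ordinarity at `2`, unipotent inertia**: a flat module over `ℤ_2` killed by `2 ^ r` with a chain
`⊥ = F 0, …, F k = ⊤` on whose steps inertia acts trivially: inertia acts on `aug_I M` through the
cyclotomic character. -/
theorem augI_le_cycSub_two (h : HasFlatModel ℤ_[2] (PadicAlgCl 2) (Gq 2) M act) (r : ℕ)
    (hn : ∀ m : M, 2 ^ r • m = 0) (F : ℕ → AddSubgroup M) (k : ℕ) (h0 : F 0 = ⊥) (hk : F k = ⊤)
    (hstep : ∀ i < k, StepTriv act (F i) (F (i + 1))) :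
    augI act ≤ cycSub h (2 ^ r) := by
  obtain ⟨H, i1, i2, hco, hfin, hfree, hev, hevD, e, hmul, heq⟩ :=
    exists_good (fixedInFrac_padicInt 2) h
  have he1 : e 1 = 0 := by
    have := hmul 1 1
    rw [mul_one] at this
    exact left_eq_add.mp this
  have heinv : ∀ f : WithConv (H →ₐ[ℤ_[2]] PadicAlgCl 2), e f⁻¹ = - e f := by
    intro f
    have := hmul f f⁻¹
    rw [mul_inv_cancel, he1] at this
    exact (neg_eq_of_add_eq_zero_right this.symm).symm
  have hpow : ∀ (f : WithConv (H →ₐ[ℤ_[2]] PadicAlgCl 2)) (c : ℕ), e (f ^ c) = c • e f := by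
    intro f c
    induction c with
    | zero => rw [pow_zero, he1, zero_smul]
    | succ c ih => rw [pow_succ, hmul, ih, succ_nsmul]
  have hkill : ∀ f : WithConv (H →ₐ[ℤ_[2]] PadicAlgCl 2), f ^ (2 ^ r) = 1 := by
    intro f
    apply e.injective
    rw [hpow, hn, he1]
  -- connected points in `F i` are multiplicative
  have key : ∀ i ≤ k, ∀ x : WithConv (H →ₐ[ℤ_[2]] PadicAlgCl 2), x ∈ connPts (unitBall 2) →
      e x ∈ F i → x ∈ multPts H (unitBall 2) := by
    intro i
    induction i with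
    | zero =>
      intro _ x _ hxF
      rw [h0, AddSubgroup.mem_bot] at hxF
      have : x = 1 := e.injective (by rw [hxF, he1])
      rw [this]
      exact Subgroup.one_mem _
    | succ i ih =>
      intro hi x hx hxF
      have hi' : i < k := hi
      refine mem_multPts_of_step hx (hkill x) (fun σ hσ => ?_)
      have hσ' : σ ∈ (unitBall 2).inertiaSubgroupIn ℚ_[2] := by
        rw [inertiaSubgroupIn_unitBall]; exact hσ
      refine ih hi'.le _ (smul_mul_inv_mem_connPts (unitBall 2) hσ' x) ?_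
      rw [hmul, heinv, heq, ← sub_eq_add_neg]
      exact hstep i hi' σ hσ (e x) hxF
  -- `aug_I` consists of connected points
  set S : Set (WithConv (H →ₐ[ℤ_[2]] PadicAlgCl 2)) :=
    {g | ∃ σ ∈ Iq 2, ∃ y : WithConv (H →ₐ[ℤ_[2]] PadicAlgCl 2), g = σ • y * y⁻¹} with hS
  have haug : ∀ m : M, m ∈ augI act → e.symm m ∈ Subgroup.closure S := by
    intro m hm
    induction hm using AddSubgroup.closure_induction with
    | mem x hx =>
      obtain ⟨σ, hσ, y, rfl⟩ := hx
      apply Subgroup.subset_closure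
      refine ⟨σ, hσ, e.symm y, ?_⟩
      apply e.injective
      rw [e.apply_symm_apply, hmul, heinv, heq, e.apply_symm_apply, sub_eq_add_neg]
    | zero =>
      have : e.symm 0 = 1 := by
        apply e.injective
        rw [e.apply_symm_apply, he1]
      rw [this]
      exact Subgroup.one_mem _
    | add x y _ _ hx hy =>
      have : e.symm (x + y) = e.symm x * e.symm y := by
        apply e.injective
        rw [e.apply_symm_apply, hmul, e.apply_symm_apply, e.apply_symm_apply]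
      rw [this]
      exact Subgroup.mul_mem _ hx hy
    | neg x _ hx =>
      have : e.symm (-x) = (e.symm x)⁻¹ := by
        apply e.injective
        rw [e.apply_symm_apply, heinv, e.apply_symm_apply]
      rw [this]
      exact Subgroup.inv_mem _ hx
  have hSle : Subgroup.closure S ≤ connPts (unitBall 2) := by
    rw [Subgroup.closure_le]
    rintro g ⟨σ, hσ, y, rfl⟩
    have hσ' : σ ∈ (unitBall 2).inertiaSubgroupIn ℚ_[2] := by
      rw [inertiaSubgroupIn_unitBall]; exact hσ
    exact smul_mul_inv_mem_connPts (unitBall 2) hσ' y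
  intro m hm σ hσ c hc
  have hmult : e.symm m ∈ multPts H (unitBall 2) := by
    refine key k le_rfl _ (hSle (haug m hm)) ?_
    rw [hk]
    exact AddSubgroup.mem_top _
  have h1 := smul_eq_pow_of_mem_multPts_local hevD.1 hσ (2 ^ r) c hkill hc hmult
  have h2 := congrArg e h1
  rw [heq, hpow, e.apply_symm_apply] at h2
  exact h2

end Module

section Mixed

variable {M : Type} [AddCommGroup M] {act : Gq 2 → M → M}

/-- At `p = 2` a cyclotomic step of index `≤ 2` is a trivial step (the cyclotomic exponents modulo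
`2 ^ r`, `r ≥ 1`, are odd). -/
theorem stepTriv_of_stepCyc_two {r : ℕ} (hr : 1 ≤ r) {N N' : AddSubgroup M}
    (hc : StepCyc act (2 ^ r) N N') (h2 : ∀ m ∈ N', 2 • m ∈ N) : StepTriv act N N' := by
  intro σ hσ m hm
  haveI : NeZero (2 ^ r) := ⟨pow_ne_zero r two_ne_zero⟩
  obtain ⟨c, hcc⟩ := exists_isCycExp (2 ^ r) σ
  have hev : Even (2 ^ r) := (Nat.even_pow.2 ⟨even_two, by omega⟩)
  have h1 := hcc (-1) hev.neg_one_pow
  rw [map_neg, map_one] at h1
  have hne : (-1 : PadicAlgCl 2) ≠ 1 := by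
    intro h
    have h3 : (2 : PadicAlgCl 2) = 0 := by linear_combination -h
    exact two_ne_zero h3
  have hodd : Odd c := (neg_one_pow_eq_neg_one_iff_odd hne).1 h1.symm
  obtain ⟨t, rfl⟩ := hodd
  have h3 := hc σ hσ (2 * t + 1) hcc m hm
  have h4 : act σ m - m = (act σ m - (2 * t + 1) • m) + t • (2 • m) := by
    rw [add_smul, one_smul, mul_comm, mul_smul]
    abel
  rw [h4]
  exact N.add_mem h3 (N.nsmul_mem (h2 m hm) t)

/-- **Ordinarity at `2`**, mixed form: steps trivial, or cyclotomic of index `≤ 2`. -/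
theorem augI_le_cycSub_two' (h : HasFlatModel ℤ_[2] (PadicAlgCl 2) (Gq 2) M act) (r : ℕ)
    (hn : ∀ m : M, 2 ^ r • m = 0) (F : ℕ → AddSubgroup M) (k : ℕ) (h0 : F 0 = ⊥) (hk : F k = ⊤)
    (hstep : ∀ i < k, StepTriv act (F i) (F (i + 1)) ∨
      (StepCyc act (2 ^ r) (F i) (F (i + 1)) ∧ ∀ m ∈ F (i + 1), 2 • m ∈ F i)) :
    augI act ≤ cycSub h (2 ^ r) := by
  rcases Nat.eq_zero_or_pos r with hr | hr
  · intro x _
    have hx : x = 0 := by
      have := hn x
      rwa [hr, pow_zero, one_smul] at this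
    rw [hx]
    exact AddSubgroup.zero_mem _
  · refine augI_le_cycSub_two h r hn F k h0 hk (fun i hi => ?_)
    rcases hstep i hi with ht | ⟨hc, h2⟩
    · exact ht
    · exact stepTriv_of_stepCyc_two hr hc h2

end Mixed

section AnyPrime

variable {p : ℕ} [Fact p.Prime] {M : Type} [AddCommGroup M] {act : Gq p → M → M}

/-- **Ordinarity, any prime `p`**: `M` flat over `ℤ_p`, killed by `p ^ r`, with a chain
`⊥ = F 0, …, F k = ⊤` each of whose steps is trivial on inertia, or cyclotomic on inertia and of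
index `≤ p` (the index condition is only used for `p = 2`) ⟹ `aug_I M ≤ M^{I = cyclotomic}`. -/
theorem augI_le_cycSub_of_chain_prime (h : HasFlatModel ℤ_[p] (PadicAlgCl p) (Gq p) M act) (r : ℕ)
    (hn : ∀ m : M, p ^ r • m = 0) (F : ℕ → AddSubgroup M) (k : ℕ) (h0 : F 0 = ⊥) (hk : F k = ⊤)
    (hstep : ∀ i < k, StepTriv act (F i) (F (i + 1)) ∨
      (StepCyc act (p ^ r) (F i) (F (i + 1)) ∧ ∀ m ∈ F (i + 1), p • m ∈ F i)) :
    augI act ≤ cycSub h (p ^ r) := by
  by_cases hp2 : p = 2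
  · subst hp2
    exact augI_le_cycSub_two' h r hn F k h0 hk hstep
  · haveI : NeZero (p ^ r) := ⟨pow_ne_zero r (Fact.out : p.Prime).ne_zero⟩
    refine augI_le_cycSub_of_chain h hp2 (p ^ r) hn F k h0 hk (fun i hi => ?_)
    rcases hstep i hi with ht | ⟨hc, -⟩
    · exact Or.inl ht
    · exact Or.inr hc

end AnyPrime

end

end Fermat.Agent.MZ.ORDL.OrdTwo3
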