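/-
Programme MZ (S15), chapter ORDL, file OrdMain6 (helper6): **the ORDL deliverables**, element-level
on inertia (the inputs of `MZ/LOCL/OrdPeu4.OrdPeu` and of "Kummer classes lie in `Lord`").

`ℓ` any prime, `ℓ ∤ N`, `n = ℓ ^ r` (`0 < r`), `G ≤ JZero N` a `G_ℚ`-stable subgroup killed by `n` with
an INERTIA CHAIN `⊥ = F 0, …, F k = G` (steps trivial on `Iq ℓ`, or cyclotomic on `Iq ℓ` and of index
`≤ ℓ`), `B0 := cycPart ℓ n G` (the points of `G` on which `Iq ℓ` acts through the cyclotomic exponent),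
`y : JZero N` with `n • y` fixed by `G_ℚ` and `σ • y - y ∈ G` for all `σ` (a division point of a rational
point, projected to `G`; or a point of `G`).

* `cycPart`; `mem_cycPart_iff`; `smul_mem_cycPart` (stable under `Iq ℓ`);
* **`division_mem_cycPart`** (O1 + O4i) : `rq ℓ τ • y - y ∈ cycPart ℓ n G` for `τ ∈ Iq ℓ`
  (helper3's `OrdTwo3.augI_le_cycSub_of_chain_prime` on the flat module `ZMod n × G ⊆ KumMod`);
* **`division_unitRad`** (O3 + O4ii) : for every character `j` of `cycPart ℓ n G`,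
  `∃ u, ‖u‖ = 1 ∧ ∀ τ ∈ Iq ℓ, τ u = j (rq ℓ τ • y - y) * u`;
* `et`, `ext_unit` : the special case `y = b ∈ G`.
-/
import Mathlib
import Fermat.Agent.MZ.ORDL.KumUnit6
import Fermat.Agent.MZ.ORDL.OrdTwo3

set_option autoImplicit false
set_option linter.unusedSectionVars false
set_option linter.style.longLine false
set_option linter.style.haveILetI false

open AlgebraicCurve ModularCurve

namespace Fermat.Agent.MZ.ORDL.OrdMain6

open Fermat.Agent.TW.FLAT.Points6 Fermat.Agent.TW.FLAT.FlatModule6 Fermat.Agent.TW.LOC.Defs2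
open Fermat.Agent.FF.LEVEL.Transfer0 Fermat.Agent.TW.FLAT.LocalPoints6
open Fermat.Agent.TW.FLAT.FlatIntrinsic7 Fermat.Agent.TW.FLAT.Ordinary7
open Fermat.Agent.MZ.ORDL.KumExt6 Fermat.Agent.MZ.ORDL.KumLevel6 Fermat.Agent.MZ.ORDL.KumUnit6
open Fermat.Agent.MZ.ORDL.OrdChain3 Fermat.Agent.MZ.ORDL.OrdTwo3 GaloisRep

noncomputable section

variable (ℓ : ℕ) [Fact ℓ.Prime] {N : ℕ} [NeZero N]

lemma gal_smul_zero (σ : GQ) : σ • (0 : JZero N) = 0 := @smul_zero GQ (JZero N) _ _ σ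

/-- The cyclotomic part of `G`: the points on which `Iq ℓ` acts through the cyclotomic exponent
modulo `n`. -/
def cycPart (n : ℕ) (G : AddSubgroup (JZero N)) : AddSubgroup (JZero N) where
  carrier := {x | x ∈ G ∧ ∀ τ ∈ Iq ℓ, ∀ c : ℕ, IsCycExp n τ c → rq ℓ τ • x = c • x}
  zero_mem' := ⟨G.zero_mem, fun τ _ c _ => by rw [smul_zero, smul_zero]⟩
  add_mem' := fun {a b} ha hb => ⟨G.add_mem ha.1 hb.1, fun τ hτ c hc => by
    rw [smul_add, ha.2 τ hτ c hc, hb.2 τ hτ c hc, nsmul_add]⟩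
  neg_mem' := fun {a} ha => ⟨G.neg_mem ha.1, fun τ hτ c hc => by
    rw [smul_neg, ha.2 τ hτ c hc, neg_nsmul]⟩

variable {ℓ}

theorem mem_cycPart_iff {n : ℕ} {G : AddSubgroup (JZero N)} {x : JZero N} :
    x ∈ cycPart ℓ n G ↔
      x ∈ G ∧ ∀ τ ∈ Iq ℓ, ∀ c : ℕ, IsCycExp n τ c → rq ℓ τ • x = c • x := Iff.rfl

theorem cycPart_le {n : ℕ} (G : AddSubgroup (JZero N)) : cycPart ℓ n G ≤ G := fun _ hx => hx.1

/-- On the cyclotomic part every character is `Iq ℓ`-equivariant. -/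
theorem char_equivariant {n : ℕ} [NeZero n] {G : AddSubgroup (JZero N)}
    (hGn : ∀ x ∈ G, n • x = 0)
    (j : JZero N → PadicAlgCl ℓ) (hj1 : j 0 = 1)
    (hjmul : ∀ a ∈ cycPart ℓ n G, ∀ b ∈ cycPart ℓ n G, j (a + b) = j a * j b)
    (τ : Gq ℓ) (hτ : τ ∈ Iq ℓ) (t : JZero N) (ht : t ∈ cycPart ℓ n G) :
    j (rq ℓ τ • t) = τ (j t) := by
  obtain ⟨c, hc⟩ := exists_isCycExp n τ
  rw [ht.2 τ hτ c hc]
  have hpow : ∀ k : ℕ, j (k • t) = j t ^ k := by
    intro k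
    induction k with
    | zero => rw [zero_nsmul, pow_zero, hj1]
    | succ k ih =>
      rw [succ_nsmul, hjmul _ (AddSubgroup.nsmul_mem _ ht k) _ ht, ih, pow_succ]
  rw [hpow c]
  have hroot : j t ^ n = 1 := by rw [← hpow n, hGn t ht.1, hj1]
  exact (hc (j t) hroot).symm

variable (r : ℕ) (G : AddSubgroup (JZero N))

section Main

variable (hℓN : ¬ ℓ ∣ N) (hr : 0 < r)
  (hGn : ∀ x ∈ G, ℓ ^ r • x = 0) (hGst : ∀ σ : GQ, ∀ x ∈ G, σ • x ∈ G)
  (F : ℕ → AddSubgroup (JZero N)) (k : ℕ) (hF0 : F 0 = ⊥) (hFk : F k = G)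
  (hstep : ∀ i < k,
    (∀ τ ∈ Iq ℓ, ∀ x ∈ F (i + 1), rq ℓ τ • x - x ∈ F i) ∨
    ((∀ τ ∈ Iq ℓ, ∀ c : ℕ, IsCycExp (ℓ ^ r) τ c → ∀ x ∈ F (i + 1), rq ℓ τ • x - c • x ∈ F i) ∧
      ∀ x ∈ F (i + 1), ℓ • x ∈ F i))
  (y : JZero N) (hy : ∀ σ : GQ, σ • (ℓ ^ r • y) = ℓ ^ r • y) (hyG : ∀ σ : GQ, σ • y - y ∈ G)

include hℓN hr hGn hGst hF0 hFk hstep hy hyG in
/-- **(O1) + (O4i)**: the Kummer cocycle of `y` takes values in the cyclotomic part on inertia. -/
theorem division_mem_cycPart (τ : Gq ℓ) (hτ : τ ∈ Iq ℓ) :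
    rq ℓ τ • y - y ∈ cycPart ℓ (ℓ ^ r) G := by
  classical
  haveI : NeZero (ℓ ^ r) := ⟨pow_ne_zero r (Fact.out : ℓ.Prime).ne_zero⟩
  have hn1 : 1 < ℓ ^ r := Nat.one_lt_pow (Nat.pos_iff_ne_zero.mp hr) (Fact.out : ℓ.Prime).one_lt
  set n := ℓ ^ r with hn
  -- the module `ZMod n × G`
  have hmemG : ∀ (σ : GQ) (a : ZMod n) (t : G), σ • (t : JZero N) + a.val • (σ • y - y) ∈ G :=
    fun σ a t => G.add_mem (hGst σ _ t.2) (AddSubgroup.nsmul_mem _ (hyG σ) _)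
  let actE : Gq ℓ → ZMod n × G → ZMod n × G := fun σ e =>
    (e.1, ⟨rq ℓ σ • (e.2 : JZero N) + e.1.val • (rq ℓ σ • y - y), hmemG (rq ℓ σ) e.1 e.2⟩)
  have htors : ∀ t : G, (t : JZero N) ∈ Submodule.torsionBy ℤ (JZero N) (n : ℤ) := fun t => by
    rw [Submodule.mem_torsionBy_iff, natCast_zsmul]
    exact hGn _ t.2
  let incl : G →+ Submodule.torsionBy ℤ (JZero N) (n : ℤ) :=
    { toFun := fun t => ⟨(t : JZero N), htors t⟩
      map_zero' := rfl
      map_add' := fun _ _ => rfl }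
  let ι : ZMod n × G →+ KumMod N n := AddMonoidHom.prodMap (AddMonoidHom.id (ZMod n)) incl
  have hι : Function.Injective ι := by
    intro a b hab
    have h1 : a.1 = b.1 := (Prod.ext_iff.1 hab).1
    have h2 : incl a.2 = incl b.2 := (Prod.ext_iff.1 hab).2
    refine Prod.ext h1 (Subtype.ext ?_)
    exact congrArg (fun t : Submodule.torsionBy ℤ (JZero N) (n : ℤ) => (t : JZero N)) h2
  have hιact : ∀ (σ : Gq ℓ) (e : ZMod n × G), ι (actE σ e) = kumAct y hy (rq ℓ σ) (ι e) := by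
    intro σ e
    refine Prod.ext rfl (Subtype.ext ?_)
    show rq ℓ σ • (e.2 : JZero N) + e.1.val • (rq ℓ σ • y - y) = _
    rw [kumAct_snd, Submodule.coe_add, coe_torsAct, Submodule.coe_smul_of_tower, coe_kumCoc]
    rfl
  have hflat : HasFlatModel ℤ_[ℓ] (PadicAlgCl ℓ) (Gq ℓ) (ZMod n × G) actE :=
    HasFlatModel.of_injective (fixedInFrac_padicInt ℓ) (kumFlat_local (ℓ := ℓ) hℓN y hy) ι hι hιact
  have hkill : ∀ e : ZMod n × G, n • e = 0 := by
    intro e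
    refine Prod.ext ?_ (Subtype.ext ?_)
    · show n • e.1 = 0
      rw [nsmul_eq_mul, ZMod.natCast_self, zero_mul]
    · show ((n • e.2 : G) : JZero N) = 0
      rw [AddSubgroup.coe_nsmul]
      exact hGn _ e.2.2
  -- the chain
  let F' : ℕ → AddSubgroup (ZMod n × G) := fun i =>
    { carrier := {e | i ≤ k → e.1 = 0 ∧ (e.2 : JZero N) ∈ F i}
      zero_mem' := fun _ => ⟨rfl, (F i).zero_mem⟩
      add_mem' := fun {a b} ha hb hi => ⟨by rw [Prod.fst_add, (ha hi).1, (hb hi).1, add_zero], by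
        rw [Prod.snd_add, AddSubgroup.coe_add]
        exact (F i).add_mem (ha hi).2 (hb hi).2⟩
      neg_mem' := fun {a} ha hi => ⟨by rw [Prod.fst_neg, (ha hi).1, neg_zero], by
        rw [Prod.snd_neg, AddSubgroup.coe_neg]
        exact (F i).neg_mem (ha hi).2⟩ }
  have hF'mem : ∀ i (e : ZMod n × G), e ∈ F' i ↔ (i ≤ k → e.1 = 0 ∧ (e.2 : JZero N) ∈ F i) :=
    fun _ _ => Iff.rfl
  have h0' : F' 0 = ⊥ := by
    rw [eq_bot_iff]
    intro e he
    have h := (hF'mem 0 e).1 he (Nat.zero_le k)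
    rw [hF0, AddSubgroup.mem_bot] at h
    rw [AddSubgroup.mem_bot]
    exact Prod.ext h.1 (Subtype.ext h.2)
  have hk' : F' (k + 1) = ⊤ := by
    rw [eq_top_iff]
    intro e _
    exact (hF'mem (k + 1) e).2 (fun h => absurd h (Nat.not_succ_le_self k))
  have hact0 : ∀ (σ : Gq ℓ) (e : ZMod n × G), e.1 = 0 →
      (((actE σ e).2 : G) : JZero N) = rq ℓ σ • (e.2 : JZero N) := by
    intro σ e he
    show rq ℓ σ • (e.2 : JZero N) + e.1.val • (rq ℓ σ • y - y) = _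
    rw [he, ZMod.val_zero, zero_nsmul, add_zero]
  have hstep' : ∀ i < k + 1, StepTriv actE (F' i) (F' (i + 1)) ∨
      (StepCyc actE (ℓ ^ r) (F' i) (F' (i + 1)) ∧ ∀ m ∈ F' (i + 1), ℓ • m ∈ F' i) := by
    intro i hi
    rcases Nat.lt_succ_iff_lt_or_eq.mp hi with hik | hik
    · -- a step of the chain of `G`
      have hik1 : i + 1 ≤ k := hik
      rcases hstep i hik with ht | ⟨hc, hℓ⟩
      · left
        intro σ hσ e he hi'
        have he' := (hF'mem (i + 1) e).1 he hik1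
        refine ⟨?_, ?_⟩
        · show e.1 - e.1 = 0
          exact sub_self _
        · rw [Prod.snd_sub, AddSubgroup.coe_sub, hact0 σ e he'.1]
          exact ht σ hσ _ he'.2
      · right
        refine ⟨?_, ?_⟩
        · intro σ hσ c hcc e he hi'
          have he' := (hF'mem (i + 1) e).1 he hik1
          refine ⟨?_, ?_⟩
          · show e.1 - (c • e).1 = 0
            rw [Prod.smul_fst, he'.1, smul_zero, sub_self]
          · rw [Prod.snd_sub, AddSubgroup.coe_sub, hact0 σ e he'.1, Prod.smul_snd,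
              AddSubgroup.coe_nsmul]
            exact hc σ hσ c hcc _ he'.2
        · intro e he hi'
          have he' := (hF'mem (i + 1) e).1 he hik1
          refine ⟨?_, ?_⟩
          · rw [Prod.smul_fst, he'.1, smul_zero]
          · rw [Prod.smul_snd, AddSubgroup.coe_nsmul]
            exact hℓ _ he'.2
    · -- the last step: `E / (0 × G) = ZMod n` with trivial action
      left
      subst hik
      intro σ hσ e _ _
      refine ⟨?_, ?_⟩
      · show e.1 - e.1 = 0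
        exact sub_self _
      · rw [hFk]
        exact (actE σ e - e).2.2
  have hord := augI_le_cycSub_of_chain_prime hflat r hkill F' (k + 1) h0' hk' hstep'
  -- the base point
  have hτaug : actE τ ((1 : ZMod n), (0 : G)) - ((1 : ZMod n), (0 : G)) ∈ augI actE :=
    act_sub_mem_augI hτ _
  have hcyc := hord hτaug
  rw [mem_cycSub_iff] at hcyc
  haveI : Fact (1 < n) := ⟨hn1⟩
  have hval : ((actE τ ((1 : ZMod n), (0 : G)) - ((1 : ZMod n), (0 : G))).2 : JZero N)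
      = rq ℓ τ • y - y := by
    rw [Prod.snd_sub, AddSubgroup.coe_sub]
    show rq ℓ τ • ((0 : G) : JZero N) + (1 : ZMod n).val • (rq ℓ τ • y - y) - ((0 : G) : JZero N) = _
    rw [AddSubgroup.coe_zero, gal_smul_zero (rq ℓ τ), zero_add,
      sub_zero, ZMod.val_one, one_nsmul]
  have hfst : (actE τ ((1 : ZMod n), (0 : G)) - ((1 : ZMod n), (0 : G))).1 = 0 := by
    show (1 : ZMod n) - 1 = 0
    exact sub_self _
  refine ⟨hyG (rq ℓ τ), fun σ hσ c hc => ?_⟩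
  have h1 := hcyc σ hσ c hc
  have h2 := congrArg (fun e : ZMod n × G => ((e.2 : G) : JZero N)) h1
  beta_reduce at h2
  rw [hact0 σ _ hfst, Prod.smul_snd, AddSubgroup.coe_nsmul, hval] at h2
  exact h2

include hℓN hr hGn hGst hF0 hFk hstep hy hyG in
/-- **(O3) + (O4ii)**: the Kummer cocycle of `y`, composed with any character of the cyclotomic
part, has a unit radical. -/
theorem division_unitRad (j : JZero N → PadicAlgCl ℓ) (hj1 : j 0 = 1)
    (hjmul : ∀ a ∈ cycPart ℓ (ℓ ^ r) G, ∀ b ∈ cycPart ℓ (ℓ ^ r) G, j (a + b) = j a * j b) :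
    ∃ u : PadicAlgCl ℓ, ‖u‖ = 1 ∧ ∀ τ ∈ Iq ℓ, τ u = j (rq ℓ τ • y - y) * u := by
  haveI : NeZero (ℓ ^ r) := ⟨pow_ne_zero r (Fact.out : ℓ.Prime).ne_zero⟩
  have hn1 : 1 < ℓ ^ r := Nat.one_lt_pow (Nat.pos_iff_ne_zero.mp hr) (Fact.out : ℓ.Prime).one_lt
  refine exists_unit_division hℓN hn1 y hy (cycPart ℓ (ℓ ^ r) G)
    (fun t ht => hGn t ht.1) ?_ j hj1 hjmul
    (fun τ hτ t ht => char_equivariant hGn j hj1 hjmul τ hτ t ht)
    (fun τ hτ => division_mem_cycPart r G hℓN hr hGn hGst F k hF0 hFk hstep y hy hyG τ hτ)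
  -- stability of the cyclotomic part under inertia
  intro τ hτ t ht
  obtain ⟨c, hc⟩ := exists_isCycExp (ℓ ^ r) τ
  rw [ht.2 τ hτ c hc]
  exact AddSubgroup.nsmul_mem _ ht c

end Main

section Special

variable (hℓN : ¬ ℓ ∣ N) (hr : 0 < r)
  (hGn : ∀ x ∈ G, ℓ ^ r • x = 0) (hGst : ∀ σ : GQ, ∀ x ∈ G, σ • x ∈ G)
  (F : ℕ → AddSubgroup (JZero N)) (k : ℕ) (hF0 : F 0 = ⊥) (hFk : F k = G)
  (hstep : ∀ i < k,
    (∀ τ ∈ Iq ℓ, ∀ x ∈ F (i + 1), rq ℓ τ • x - x ∈ F i) ∨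
    ((∀ τ ∈ Iq ℓ, ∀ c : ℕ, IsCycExp (ℓ ^ r) τ c → ∀ x ∈ F (i + 1), rq ℓ τ • x - c • x ∈ F i) ∧
      ∀ x ∈ F (i + 1), ℓ • x ∈ F i))

include hℓN hr hGn hGst hF0 hFk hstep in
/-- **(O1)** `et` : inertia acts trivially on `G / cycPart G`. -/
theorem et (b : JZero N) (hb : b ∈ G) (τ : Gq ℓ) (hτ : τ ∈ Iq ℓ) :
    rq ℓ τ • b - b ∈ cycPart ℓ (ℓ ^ r) G :=
  division_mem_cycPart r G hℓN hr hGn hGst F k hF0 hFk hstep b
    (fun σ => by rw [hGn b hb]; exact gal_smul_zero σ)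
    (fun σ => G.sub_mem (hGst σ b hb) hb) τ hτ

include hℓN hr hGn hGst hF0 hFk hstep in
/-- **(O3)** `ext_unit` : the extension `cycPart G → G → G / cycPart G` has unit Kummer classes. -/
theorem ext_unit (j : JZero N → PadicAlgCl ℓ) (hj1 : j 0 = 1)
    (hjmul : ∀ a ∈ cycPart ℓ (ℓ ^ r) G, ∀ b ∈ cycPart ℓ (ℓ ^ r) G, j (a + b) = j a * j b)
    (b : JZero N) (hb : b ∈ G) :
    ∃ u : PadicAlgCl ℓ, ‖u‖ = 1 ∧ ∀ τ ∈ Iq ℓ, τ u = j (rq ℓ τ • b - b) * u :=
  division_unitRad r G hℓN hr hGn hGst F k hF0 hFk hstep b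
    (fun σ => by rw [hGn b hb]; exact gal_smul_zero σ)
    (fun σ => G.sub_mem (hGst σ b hb) hb) j hj1 hjmul

end Special

end

end Fermat.Agent.MZ.ORDL.OrdMain6
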