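/-
Programme MZ (S15), chapter ORDL, file OrdPeuInst6 (helper6): **the ORDL deliverables in `Rep`
language** (the thin wrapper from the `AddSubgroup (JZero N)` vocabulary of `OrdMain6` to the
vocabulary of LOCL `OrdPeu4` / DESC `Kummer7` / SEL).

`ℓ` a prime, `ℓ ∤ N`, `0 < r`, `G ≤ JZero N` a `G_ℚ`-stable subgroup killed by `ℓ ^ r` with an inertia
chain (hypotheses of `OrdMain6`).

* `subRepn G hGst`, `subRep G hGst : Rep ℤ GQ` : the Galois module `G` (carrier `↥G`), `coe_subRep_ρ`;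
  `finite_subRep`, `isDiscrete_subRep`;
* `inclMap` : `subRep G → subRep G'` for `G ≤ G'`; `torIncl : subRep G → torRep N m`;
  `projMap ε : torRep N m → subRep G` for an additive endomorphism `ε` of `JZero N` with
  `ε (J[m]) ⊆ G`, with their equivariance;
* `B0 ℓ n G hGst : AddSubgroup (Mq (subRep G hGst) ℓ)` : the cyclotomic part `cycPart ℓ n G`;
* **`ordPeu`** : `OrdPeu ℓ (Mq (subRep G hGst) ℓ) (B0 ℓ (ℓ ^ r) G hGst)`;
* **`kummer_mem_Lord`** : for `x ∈ J₀(N)(ℚ)` and a Galois-equivariant `ε` with `ε (J[ℓ^r]) ⊆ G`,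
  `resq1 … ℓ (mapH1 (projMap ε) … (kappa … x)) ∈ Lord ℓ (Mq (subRep G hGst) ℓ) (B0 …)`;
* `hstep_of_global` : the inertia-chain hypothesis of `OrdMain6` from the global chain delivered by
  CONST (`Chain9.exists_chain`: steps killed by `ℓ` on which `G_ℚ` acts trivially or through a
  character `χ : GQ →* ZMod ℓ` which is the mod-`ℓ` cyclotomic character).
-/
import Mathlib
import Fermat.Agent.MZ.ORDL.OrdMain6
import Fermat.Agent.MZ.LOCL.OrdPeu4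
import Fermat.Agent.MZ.DESC.Kummer7

set_option autoImplicit false
set_option linter.unusedSectionVars false
set_option linter.style.longLine false
set_option linter.style.haveILetI false

open AlgebraicCurve ModularCurve groupCohomology
open Fermat.Agent.PT.PRO.LevelCoh28 Fermat.Agent.PT.PRO.LevelCohRes28
open Fermat.Agent.PT.GLUE.Objects21
open Fermat.Agent.TW.DEF.Basic1
open Fermat.Agent.TW.LOC.Defs2 (Iq H1ur)
open Fermat.Agent.TW.FLAT.Ordinary7 (IsCycExp exists_isCycExp)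
open Fermat.Agent.MZ.LOCL.OrdPeu4 Fermat.Agent.MZ.DESC.Kummer7 Fermat.Agent.MZ.ORDL.OrdMain6

noncomputable section

namespace Fermat.Agent.MZ.ORDL.OrdPeuInst6

variable {N : ℕ} [NeZero N]

/-! ### the Galois module `G` -/

/-- The Galois action on a `G_ℚ`-stable subgroup `G` of `JZero N`, as a `ℤ`-linear
representation. -/
def subRepn (G : AddSubgroup (JZero N)) (hGst : ∀ σ : GQ, ∀ x ∈ G, σ • x ∈ G) :
    Representation ℤ GQ ↥G where
  toFun σ :=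
    { toFun := fun x => ⟨σ • (x : JZero N), hGst σ x x.2⟩
      map_add' := fun x y => Subtype.ext (by
        show σ • ((x : JZero N) + (y : JZero N)) = σ • (x : JZero N) + σ • (y : JZero N)
        rw [smul_add])
      map_smul' := fun c x => Subtype.ext (by
        show σ • ((c • x : ↥G) : JZero N) = c • (σ • (x : JZero N))
        rw [AddSubgroup.coe_zsmul]
        exact map_zsmul (DistribSMul.toAddMonoidHom (JZero N) σ) c (x : JZero N)) }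
  map_one' := by
    refine LinearMap.ext fun x => Subtype.ext ?_
    show (1 : GQ) • (x : JZero N) = x
    rw [one_smul]
  map_mul' σ τ := by
    refine LinearMap.ext fun x => Subtype.ext ?_
    show (σ * τ) • (x : JZero N) = σ • τ • (x : JZero N)
    rw [mul_smul]

/-- `G` as an object of `Rep ℤ GQ`. -/
abbrev subRep (G : AddSubgroup (JZero N)) (hGst : ∀ σ : GQ, ∀ x ∈ G, σ • x ∈ G) : Rep.{0} ℤ GQ :=
  Rep.of (subRepn G hGst)

theorem coe_subRep_ρ (G : AddSubgroup (JZero N)) (hGst : ∀ σ : GQ, ∀ x ∈ G, σ • x ∈ G) (σ : GQ)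
    (x : subRep G hGst) :
    (((subRep G hGst).ρ σ x : ↥G) : JZero N) = σ • ((x : ↥G) : JZero N) := rfl

/-- A subgroup killed by `m > 0` is finite. -/
theorem finite_of_killed (G : AddSubgroup (JZero N)) {m : ℕ} (hm : 0 < m)
    (hGm : ∀ x ∈ G, m • x = 0) : Finite ↥G := by
  haveI : NeZero m := ⟨hm.ne'⟩
  have hfin := Fermat.Agent.ES.KUM.FiniteTorsion15.finite_setOf_nsmul_eq_zero N m
  haveI := hfin.to_subtype
  exact Finite.of_injective (fun x : ↥G => (⟨x.1, hGm x.1 x.2⟩ : {y : JZero N | m • y = 0}))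
    (fun a b h => Subtype.ext (congrArg (fun z : {y : JZero N | m • y = 0} => (z : JZero N)) h))

theorem finite_subRep (G : AddSubgroup (JZero N)) (hGst : ∀ σ : GQ, ∀ x ∈ G, σ • x ∈ G) {m : ℕ}
    (hm : 0 < m) (hGm : ∀ x ∈ G, m • x = 0) : Finite (subRep G hGst) :=
  finite_of_killed G hm hGm

/-! ### maps between these modules -/

/-- The inclusion `G → G'` for `G ≤ G'`. -/
def inclMap {G G' : AddSubgroup (JZero N)} (hGst : ∀ σ : GQ, ∀ x ∈ G, σ • x ∈ G)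
    (hGst' : ∀ σ : GQ, ∀ x ∈ G', σ • x ∈ G') (h : G ≤ G') : subRep G hGst →ₗ[ℤ] subRep G' hGst' :=
  AddMonoidHom.toIntLinearMap (AddSubgroup.inclusion h)

theorem coe_inclMap {G G' : AddSubgroup (JZero N)} (hGst : ∀ σ : GQ, ∀ x ∈ G, σ • x ∈ G)
    (hGst' : ∀ σ : GQ, ∀ x ∈ G', σ • x ∈ G') (h : G ≤ G') (x : subRep G hGst) :
    ((inclMap hGst hGst' h x : ↥G') : JZero N) = ((x : ↥G) : JZero N) := rfl

theorem inclMap_injective {G G' : AddSubgroup (JZero N)} (hGst : ∀ σ : GQ, ∀ x ∈ G, σ • x ∈ G)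
    (hGst' : ∀ σ : GQ, ∀ x ∈ G', σ • x ∈ G') (h : G ≤ G') :
    Function.Injective (inclMap hGst hGst' h) := fun _ _ hab =>
  Subtype.ext (congrArg (fun z : ↥G' => (z : JZero N)) hab)

theorem inclMap_equivariant {G G' : AddSubgroup (JZero N)} (hGst : ∀ σ : GQ, ∀ x ∈ G, σ • x ∈ G)
    (hGst' : ∀ σ : GQ, ∀ x ∈ G', σ • x ∈ G') (h : G ≤ G') (g : GQ) (a : subRep G hGst) :
    inclMap hGst hGst' h ((subRep G hGst).ρ g a) = (subRep G' hGst').ρ g (inclMap hGst hGst' h a) :=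
  rfl

/-- The inclusion of `G` (killed by `m`) into `J[m]`. -/
def torIncl (G : AddSubgroup (JZero N)) (hGst : ∀ σ : GQ, ∀ x ∈ G, σ • x ∈ G) {m : ℕ}
    (hGm : ∀ x ∈ G, m • x = 0) : subRep G hGst →ₗ[ℤ] torRep N m :=
  AddMonoidHom.toIntLinearMap
    (AddSubgroup.inclusion (fun x hx => (mem_Tor_iff N m x).2 (hGm x hx)) : ↥G →+ ↥(Tor N m))

theorem coe_torIncl (G : AddSubgroup (JZero N)) (hGst : ∀ σ : GQ, ∀ x ∈ G, σ • x ∈ G) {m : ℕ}
    (hGm : ∀ x ∈ G, m • x = 0) (x : subRep G hGst) :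
    ((torIncl G hGst hGm x : ↥(Tor N m)) : JZero N) = ((x : ↥G) : JZero N) := rfl

theorem torIncl_injective (G : AddSubgroup (JZero N)) (hGst : ∀ σ : GQ, ∀ x ∈ G, σ • x ∈ G) {m : ℕ}
    (hGm : ∀ x ∈ G, m • x = 0) : Function.Injective (torIncl G hGst hGm) := fun _ _ hab =>
  Subtype.ext (congrArg (fun z : ↥(Tor N m) => (z : JZero N)) hab)

theorem torIncl_equivariant (G : AddSubgroup (JZero N)) (hGst : ∀ σ : GQ, ∀ x ∈ G, σ • x ∈ G)
    {m : ℕ} (hGm : ∀ x ∈ G, m • x = 0) (g : GQ) (a : subRep G hGst) :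
    torIncl G hGst hGm ((subRep G hGst).ρ g a) = (torRep N m).ρ g (torIncl G hGst hGm a) := rfl

/-- `G` is a discrete `G_S`-module. -/
theorem isDiscrete_subRep (G : AddSubgroup (JZero N)) (hGst : ∀ σ : GQ, ∀ x ∈ G, σ • x ∈ G) {m : ℕ}
    (hGm : ∀ x ∈ G, m • x = 0) (S : Finset Nat.Primes)
    (hmS : ∀ q : Nat.Primes, (q : ℕ) ∣ m → q ∈ S) (hNS : ∀ q : Nat.Primes, (q : ℕ) ∣ N → q ∈ S) :
    IsDiscrete (levelS S).sets (subRep G hGst) := by
  intro a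
  obtain ⟨U, hU, hfix⟩ := isDiscrete_torRep N m S hmS hNS (torIncl G hGst hGm a)
  refine ⟨U, hU, fun s hs => ?_⟩
  apply torIncl_injective G hGst hGm
  rw [torIncl_equivariant]
  exact hfix s hs

/-- The map `J[m] → G` induced by an additive endomorphism `ε` of `JZero N` with `ε (J[m]) ⊆ G`. -/
def projMap (G : AddSubgroup (JZero N)) (hGst : ∀ σ : GQ, ∀ x ∈ G, σ • x ∈ G) (m : ℕ)
    (ε : JZero N →+ JZero N) (hεG : ∀ x : JZero N, m • x = 0 → ε x ∈ G) :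
    torRep N m →ₗ[ℤ] subRep G hGst :=
  AddMonoidHom.toIntLinearMap
    { toFun := fun x => (⟨ε ((x : ↥(Tor N m)) : JZero N),
        hεG _ ((mem_Tor_iff N m _).1 (Subtype.prop x))⟩ : ↥G)
      map_zero' := Subtype.ext (map_zero ε)
      map_add' := fun _ _ => Subtype.ext (map_add ε _ _) }

theorem coe_projMap (G : AddSubgroup (JZero N)) (hGst : ∀ σ : GQ, ∀ x ∈ G, σ • x ∈ G) (m : ℕ)
    (ε : JZero N →+ JZero N) (hεG : ∀ x : JZero N, m • x = 0 → ε x ∈ G) (x : torRep N m) :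
    ((projMap G hGst m ε hεG x : ↥G) : JZero N) = ε ((x : ↥(Tor N m)) : JZero N) := rfl

theorem projMap_equivariant (G : AddSubgroup (JZero N)) (hGst : ∀ σ : GQ, ∀ x ∈ G, σ • x ∈ G)
    (m : ℕ) (ε : JZero N →+ JZero N) (hεG : ∀ x : JZero N, m • x = 0 → ε x ∈ G)
    (hεeq : ∀ (σ : GQ) (y : JZero N), ε (σ • y) = σ • ε y) (g : GQ) (a : torRep N m) :
    projMap G hGst m ε hεG ((torRep N m).ρ g a) = (subRep G hGst).ρ g (projMap G hGst m ε hεG a) :=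
  Subtype.ext (hεeq g _)

/-- If `ε` is the identity on `G`, `projMap ε` is a retraction of `torIncl`. -/
theorem projMap_torIncl (G : AddSubgroup (JZero N)) (hGst : ∀ σ : GQ, ∀ x ∈ G, σ • x ∈ G) {m : ℕ}
    (hGm : ∀ x ∈ G, m • x = 0) (ε : JZero N →+ JZero N)
    (hεG : ∀ x : JZero N, m • x = 0 → ε x ∈ G) (hεid : ∀ x ∈ G, ε x = x) (a : subRep G hGst) :
    projMap G hGst m ε hεG (torIncl G hGst hGm a) = a :=
  Subtype.ext (hεid _ (Subtype.prop a))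

/-! ### the cyclotomic part and `OrdPeu` -/

section Ord

variable (ℓ : ℕ) [Fact ℓ.Prime]

/-- The cyclotomic part of `G`, as a subgroup of the local Galois module. -/
def B0 (n : ℕ) (G : AddSubgroup (JZero N)) (hGst : ∀ σ : GQ, ∀ x ∈ G, σ • x ∈ G) :
    AddSubgroup (Mq (subRep G hGst) ℓ) :=
  (cycPart ℓ n G).addSubgroupOf G

variable {ℓ}

theorem mem_B0_iff {n : ℕ} {G : AddSubgroup (JZero N)} {hGst : ∀ σ : GQ, ∀ x ∈ G, σ • x ∈ G}
    (x : Mq (subRep G hGst) ℓ) :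
    x ∈ B0 ℓ n G hGst ↔ ((x : ↥G) : JZero N) ∈ cycPart ℓ n G := Iff.rfl

/-- extension by `1` of a function on `↥G` to `JZero N`. -/
def extendChar (G : AddSubgroup (JZero N)) (j : ↥G → PadicAlgCl ℓ) : JZero N → PadicAlgCl ℓ :=
  fun x => by
    classical
    exact if hx : x ∈ G then j ⟨x, hx⟩ else 1

theorem extendChar_coe (G : AddSubgroup (JZero N)) (j : ↥G → PadicAlgCl ℓ) (x : ↥G) :
    extendChar G j (x : JZero N) = j x := by
  unfold extendChar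
  rw [dif_pos x.2]

theorem extendChar_of_mem (G : AddSubgroup (JZero N)) (j : ↥G → PadicAlgCl ℓ) {x : JZero N}
    (hx : x ∈ G) : extendChar G j x = j ⟨x, hx⟩ := by
  unfold extendChar
  rw [dif_pos hx]

/-- a character of `B0` extends to a character of `cycPart` in the sense of `OrdMain6`. -/
theorem extendChar_isChar {n : ℕ} {G : AddSubgroup (JZero N)}
    {hGst : ∀ σ : GQ, ∀ x ∈ G, σ • x ∈ G} (j : Mq (subRep G hGst) ℓ → PadicAlgCl ℓ)
    (hj : IsChar ℓ (B0 ℓ n G hGst) j) :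
    extendChar G j 0 = 1 ∧ ∀ a ∈ cycPart ℓ n G, ∀ b ∈ cycPart ℓ n G,
      extendChar G j (a + b) = extendChar G j a * extendChar G j b := by
  refine ⟨?_, fun a ha b hb => ?_⟩
  · rw [extendChar_of_mem G j G.zero_mem]
    exact hj.1
  · rw [extendChar_of_mem G j ha.1, extendChar_of_mem G j hb.1,
      extendChar_of_mem G j (G.add_mem ha.1 hb.1)]
    exact hj.2 ⟨a, ha.1⟩ ha ⟨b, hb.1⟩ hb

variable (r : ℕ) (G : AddSubgroup (JZero N))
  (hℓN : ¬ ℓ ∣ N) (hr : 0 < r)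
  (hGn : ∀ x ∈ G, ℓ ^ r • x = 0) (hGst : ∀ σ : GQ, ∀ x ∈ G, σ • x ∈ G)
  (F : ℕ → AddSubgroup (JZero N)) (k : ℕ) (hF0 : F 0 = ⊥) (hFk : F k = G)
  (hstep : ∀ i < k,
    (∀ τ ∈ Iq ℓ, ∀ x ∈ F (i + 1), rq ℓ τ • x - x ∈ F i) ∨
    ((∀ τ ∈ Iq ℓ, ∀ c : ℕ, IsCycExp (ℓ ^ r) τ c → ∀ x ∈ F (i + 1), rq ℓ τ • x - c • x ∈ F i) ∧
      ∀ x ∈ F (i + 1), ℓ • x ∈ F i))

include hℓN hr hGn hF0 hFk hstep in
/-- **`OrdPeu` for `G`** with `B0 =` the cyclotomic part. -/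
theorem ordPeu : OrdPeu ℓ (Mq (subRep G hGst) ℓ) (B0 ℓ (ℓ ^ r) G hGst) where
  fin := by
    haveI : Finite ↥G :=
      finite_of_killed G (pow_pos (Fact.out : ℓ.Prime).pos r) hGn
    exact Finite.of_injective (fun x : ↥(B0 ℓ (ℓ ^ r) G hGst) => (x : ↥G)) Subtype.val_injective
  et := fun τ hτ b =>
    OrdMain6.et r G hℓN hr hGn hGst F k hF0 hFk hstep ((b : ↥G) : JZero N) (Subtype.prop b) τ hτ
  ext_unit := fun j hj b => by
    obtain ⟨h1, hmul⟩ := extendChar_isChar j hj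
    obtain ⟨u, hu, hτu⟩ := OrdMain6.ext_unit r G hℓN hr hGn hGst F k hF0 hFk hstep
      (extendChar G j) h1 hmul ((b : ↥G) : JZero N) (Subtype.prop b)
    refine ⟨u, hu, fun τ hτ => ?_⟩
    rw [hτu τ hτ]
    congr 1
    exact extendChar_coe G j ((Mq (subRep G hGst) ℓ).ρ τ b - b)

end Ord

/-! ### the Kummer map into `H¹(G_S, G)` -/

section Kummer

variable {ℓ : ℕ} [Fact ℓ.Prime] {m : ℕ} (G : AddSubgroup (JZero N))
  (hGst : ∀ σ : GQ, ∀ x ∈ G, σ • x ∈ G)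
  (S : Finset Nat.Primes) (hm : 0 < m) (hmS : ∀ q : Nat.Primes, (q : ℕ) ∣ m → q ∈ S)
  (hNS : ∀ q : Nat.Primes, (q : ℕ) ∣ N → q ∈ S)
  (ε : JZero N →+ JZero N) (hεeq : ∀ (σ : GQ) (y : JZero N), ε (σ • y) = σ • ε y)
  (hεG : ∀ x : JZero N, m • x = 0 → ε x ∈ G)

/-- **The Kummer map of `G`**: `J₀(N)(ℚ) → H¹(G_S, J[m]) → H¹(G_S, G)`, the second map induced by
`ε`. -/
def kappaG : ↥(JQ N) →+ HS1 S (subRep G hGst) :=
  (mapH1 (𝓑 := levelS S) (projMap G hGst m ε hεG)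
    (projMap_equivariant G hGst m ε hεG hεeq)).toAddMonoidHom.comp (kappa S hm hmS hNS)

theorem kappaG_apply (x : ↥(JQ N)) :
    kappaG G hGst S hm hmS hNS ε hεeq hεG x =
      mapH1 (𝓑 := levelS S) (projMap G hGst m ε hεG) (projMap_equivariant G hGst m ε hεG hεeq)
        (kappa S hm hmS hNS x) := rfl

include hεeq hεG in
/-- the root of `x`, pushed to `G`-vocabulary: `y := ε y₀`. -/
theorem eps_root_props (x : ↥(JQ N)) (y₀ : JZero N) (hy₀ : m • y₀ = (x : JZero N)) :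
    (∀ σ : GQ, σ • (m • ε y₀) = m • ε y₀) ∧ (∀ σ : GQ, σ • ε y₀ - ε y₀ ∈ G) := by
  refine ⟨fun σ => ?_, fun σ => ?_⟩
  · rw [← map_nsmul, hy₀, ← hεeq, smul_eq_of_mem_JQ x σ]
  · rw [← hεeq, ← map_sub]
    refine hεG _ ?_
    have h1 : m • (σ • y₀) = m • y₀ := by
      rw [← Fermat.Agent.ES.TOP.TorsionGalois12.smul_nsmul_comm σ m y₀, hy₀]
      exact smul_eq_of_mem_JQ x σ
    rw [nsmul_sub, h1, sub_self]

/-- the local class of `kappaG x` at `q` is the class of `τ ↦ r_q(τ) (ε y₀) - ε y₀`. -/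
theorem resq1_kappaG (q : ℕ) [Fact q.Prime] (x : ↥(JQ N)) (y₀ : JZero N)
    (hy₀ : m • y₀ = (x : JZero N)) :
    ∃ c : ↥(Z1 (levelLoc q) (Mq (subRep G hGst) q)),
      resq1 S (subRep G hGst) q (kappaG G hGst S hm hmS hNS ε hεeq hεG x) =
        H1mk (levelLoc q) (Mq (subRep G hGst) q) c ∧
      ∀ τ : Gq q, ((((c : Gq q → Mq (subRep G hGst) q) τ : ↥G) : JZero N)) =
        rq q τ • ε y₀ - ε y₀ := by
  obtain ⟨hy, hk⟩ := kappa_eq S hm hmS hNS x y₀ hy₀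
  refine ⟨resZ1 S (subRep G hGst) q (mapZ1 (projMap G hGst m ε hεG)
    (projMap_equivariant G hGst m ε hεG hεeq) (kumZ S hmS hNS y₀ hy)), ?_, fun τ => ?_⟩
  · rw [kappaG_apply, hk]
    rfl
  · show ε (rq q τ • y₀ - y₀) = rq q τ • ε y₀ - ε y₀
    rw [map_sub, hεeq]

/-- **Kummer injectivity for `G`**: if `kappaG x = 0` then `ε x ∈ m • J₀(N)(ℚ)`. -/
theorem kappaG_eq_zero (hGm : ∀ x ∈ G, m • x = 0) (x : ↥(JQ N))
    (h : kappaG G hGst S hm hmS hNS ε hεeq hεG x = 0) :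
    ∃ w : ↥(JQ N), ε (x : JZero N) = m • (w : JZero N) := by
  have h1 : mapH1 (𝓑 := levelS S) (torMap (m := m) ε) (torMap_equivariant ε hεeq)
      (kappa S hm hmS hNS x) = 0 := by
    have h2 : mapH1 (𝓑 := levelS S) (torMap (m := m) ε) (torMap_equivariant ε hεeq)
        (kappa S hm hmS hNS x) =
        mapH1 (𝓑 := levelS S) (torIncl G hGst hGm) (torIncl_equivariant G hGst hGm)
          (kappaG G hGst S hm hmS hNS ε hεeq hεG x) := by
      rw [kappaG_apply]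
      obtain ⟨c, hc⟩ := H1mk_surjective (levelS S) (torRep N m) (kappa S hm hmS hNS x)
      rw [← hc]
      rfl
    rw [h2, h, map_zero]
  rw [kappa_natural S hm hmS hNS ε hεeq x] at h1
  obtain ⟨w, hw⟩ := kappa_eq_zero S hm hmS hNS _ h1
  refine ⟨w, ?_⟩
  have := congrArg (fun z : ↥(JQ N) => (z : JZero N)) hw
  simpa [AddSubgroup.coe_nsmul] using this

/-- **Unramifiedness criterion for `G`**: if `x` has an `m`-th root fixed by the inertia group at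
`q`, the local class of `kappaG x` at `q` is unramified. -/
theorem resq1_kappaG_mem_H1ur (q : ℕ) [Fact q.Prime] (x : ↥(JQ N)) (y₀ : JZero N)
    (hy₀ : m • y₀ = (x : JZero N)) (hfix : ∀ τ ∈ Iq q, (rq q τ) • y₀ = y₀) :
    resq1 S (subRep G hGst) q (kappaG G hGst S hm hmS hNS ε hεeq hεG x)
      ∈ H1ur q (Mq (subRep G hGst) q) := by
  obtain ⟨c, hc, hcτ⟩ := resq1_kappaG G hGst S hm hmS hNS ε hεeq hεG q x y₀ hy₀
  rw [hc]
  refine ⟨c, rfl, 0, fun τ hτ => ?_⟩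
  refine Subtype.ext ?_
  rw [hcτ τ, map_zero, sub_zero, ← hεeq, hfix τ hτ, sub_self]
  rfl

end Kummer

/-! ### Kummer classes lie in `Lord` -/

section KummerLord

variable {ℓ : ℕ} [Fact ℓ.Prime] (r : ℕ) (G : AddSubgroup (JZero N))
  (hℓN : ¬ ℓ ∣ N) (hr : 0 < r)
  (hGn : ∀ x ∈ G, ℓ ^ r • x = 0) (hGst : ∀ σ : GQ, ∀ x ∈ G, σ • x ∈ G)
  (F : ℕ → AddSubgroup (JZero N)) (k : ℕ) (hF0 : F 0 = ⊥) (hFk : F k = G)
  (hstep : ∀ i < k,
    (∀ τ ∈ Iq ℓ, ∀ x ∈ F (i + 1), rq ℓ τ • x - x ∈ F i) ∨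
    ((∀ τ ∈ Iq ℓ, ∀ c : ℕ, IsCycExp (ℓ ^ r) τ c → ∀ x ∈ F (i + 1), rq ℓ τ • x - c • x ∈ F i) ∧
      ∀ x ∈ F (i + 1), ℓ • x ∈ F i))
  (S : Finset Nat.Primes) (hm : 0 < ℓ ^ r) (hmS : ∀ q : Nat.Primes, (q : ℕ) ∣ ℓ ^ r → q ∈ S)
  (hNS : ∀ q : Nat.Primes, (q : ℕ) ∣ N → q ∈ S)
  (ε : JZero N →+ JZero N) (hεeq : ∀ (σ : GQ) (y : JZero N), ε (σ • y) = σ • ε y)
  (hεG : ∀ x : JZero N, ℓ ^ r • x = 0 → ε x ∈ G)

include hℓN hr hGn hF0 hFk hstep in
/-- **(O4) Kummer classes of rational points lie in the local condition `Lord` at `ℓ`.** -/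
theorem kummer_mem_Lord (x : ↥(JQ N)) :
    resq1 S (subRep G hGst) ℓ (kappaG G hGst S hm hmS hNS ε hεeq hεG x)
      ∈ Lord ℓ (Mq (subRep G hGst) ℓ) (B0 ℓ (ℓ ^ r) G hGst) := by
  obtain ⟨c, hc, hcτ⟩ := resq1_kappaG G hGst S hm hmS hNS ε hεeq hεG ℓ x
    (root hm (x : JZero N)) (nsmul_root hm _)
  obtain ⟨hy, hyG⟩ := eps_root_props G ε hεeq hεG x (root hm (x : JZero N)) (nsmul_root hm _)
  rw [hc, mem_Lord]
  refine ⟨c, rfl, fun τ hτ => ?_, fun j hj => ?_⟩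
  · rw [mem_B0_iff, hcτ τ]
    exact division_mem_cycPart r G hℓN hr hGn hGst F k hF0 hFk hstep _ hy hyG τ hτ
  · obtain ⟨h1, hmul⟩ := extendChar_isChar j hj
    obtain ⟨u, hu, hτu⟩ := division_unitRad r G hℓN hr hGn hGst F k hF0 hFk hstep _ hy hyG
      (extendChar G j) h1 hmul
    refine ⟨u, hu, fun τ hτ => ?_⟩
    rw [hτu τ hτ, ← hcτ τ, extendChar_coe]

end KummerLord

/-! ### from the global chain of CONST to the inertia chain of `OrdMain6` -/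

section Bridge

variable {ℓ : ℕ} [Fact ℓ.Prime]

local notation "Qbar" => AlgebraicClosure ℚ

/-- a cyclotomic exponent of `τ` modulo `n` (`ℓ ∣ n`) reduces modulo `ℓ` to the value at `rq ℓ τ` of
the mod-`ℓ` cyclotomic character. -/
theorem isCycExp_mod (χ : GQ →* ZMod ℓ)
    (hχ : ∀ (σ : GQ) (ζ : Qbar), ζ ^ ℓ = 1 → σ ζ = ζ ^ (χ σ).val)
    {n : ℕ} (hn : ℓ ∣ n) (τ : Gq ℓ) (c : ℕ) (hc : IsCycExp n τ c) :
    (c : ZMod ℓ) = χ (rq ℓ τ) := by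
  have hℓ : ℓ.Prime := Fact.out
  haveI : NeZero ℓ := ⟨hℓ.ne_zero⟩
  obtain ⟨ζ, hζ⟩ := HasEnoughRootsOfUnity.exists_primitiveRoot Qbar ℓ
  have h1 : rq ℓ τ ζ = ζ ^ (χ (rq ℓ τ)).val := hχ _ ζ hζ.pow_eq_one
  have h2 : padicEmbedding ℓ (rq ℓ τ ζ) = τ (padicEmbedding ℓ ζ) :=
    padicEmbedding_localGaloisToGlobal ℓ τ ζ
  have h3 : (padicEmbedding ℓ ζ) ^ n = 1 := by
    obtain ⟨d, rfl⟩ := hn
    rw [← map_pow, pow_mul, hζ.pow_eq_one, one_pow, map_one]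
  have h4 : τ (padicEmbedding ℓ ζ) = (padicEmbedding ℓ ζ) ^ c := hc _ h3
  have h5 : ζ ^ (χ (rq ℓ τ)).val = ζ ^ c := by
    apply (padicEmbedding ℓ).toRingHom.injective
    show padicEmbedding ℓ (ζ ^ (χ (rq ℓ τ)).val) = padicEmbedding ℓ (ζ ^ c)
    rw [← h1, h2, h4, map_pow]
  have h6 : (χ (rq ℓ τ)).val ≡ c [MOD ℓ] :=
    Fermat.Agent.ES.J.CycloChar8.modEq_of_pow_eq_pow hζ hℓ.ne_zero h5
  have h7 := (ZMod.natCast_eq_natCast_iff _ _ _).mpr h6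
  rw [ZMod.natCast_zmod_val] at h7
  exact h7.symm

/-- **the inertia chain from the global chain**: steps killed by `ℓ` on which `G_ℚ` acts trivially
or through the mod-`ℓ` cyclotomic character `χ` (the output of `CONST/Chain9.exists_chain`). -/
theorem hstep_of_global (χ : GQ →* ZMod ℓ)
    (hχ : ∀ (σ : GQ) (ζ : Qbar), ζ ^ ℓ = 1 → σ ζ = ζ ^ (χ σ).val)
    (r : ℕ) (hr : 0 < r) (F : ℕ → AddSubgroup (JZero N)) (k : ℕ)
    (hglob : ∀ i < k, (∀ x ∈ F (i + 1), ℓ • x ∈ F i) ∧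
      ((∀ σ : GQ, ∀ x ∈ F (i + 1), σ • x - x ∈ F i) ∨
        (∀ σ : GQ, ∀ x ∈ F (i + 1), σ • x - (χ σ).val • x ∈ F i))) :
    ∀ i < k,
      (∀ τ ∈ Iq ℓ, ∀ x ∈ F (i + 1), rq ℓ τ • x - x ∈ F i) ∨
      ((∀ τ ∈ Iq ℓ, ∀ c : ℕ, IsCycExp (ℓ ^ r) τ c → ∀ x ∈ F (i + 1), rq ℓ τ • x - c • x ∈ F i) ∧
        ∀ x ∈ F (i + 1), ℓ • x ∈ F i) := by
  intro i hi
  obtain ⟨hℓ, h | h⟩ := hglob i hi
  · exact Or.inl fun τ _ x hx => h (rq ℓ τ) x hx
  · refine Or.inr ⟨fun τ _ c hc x hx => ?_, hℓ⟩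
    have h1 : (c : ZMod ℓ) = χ (rq ℓ τ) :=
      isCycExp_mod χ hχ (dvd_pow_self ℓ hr.ne') τ c hc
    have h2 : ((χ (rq ℓ τ)).val : ZMod ℓ) = (c : ZMod ℓ) := by
      haveI : NeZero ℓ := ⟨(Fact.out : ℓ.Prime).ne_zero⟩
      rw [ZMod.natCast_zmod_val, h1]
    have h3 : (ℓ : ℤ) ∣ (c : ℤ) - ((χ (rq ℓ τ)).val : ℤ) :=
      Nat.modEq_iff_dvd.mp ((ZMod.natCast_eq_natCast_iff _ _ _).mp h2)
    obtain ⟨e, he⟩ := h3
    have h4 : rq ℓ τ • x - c • x =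
        (rq ℓ τ • x - (χ (rq ℓ τ)).val • x) - ℓ • (e • x) := by
      have h5 : ℓ • (e • x) = c • x - (χ (rq ℓ τ)).val • x := by
        rw [← natCast_zsmul (e • x) ℓ, ← mul_zsmul, ← he, sub_zsmul, natCast_zsmul, natCast_zsmul]
        exact (sub_eq_add_neg _ _).symm
      rw [h5]
      abel
    rw [h4]
    exact (F i).sub_mem (h (rq ℓ τ) x hx) (hℓ _ ((F (i + 1)).zsmul_mem hx e))

/-- a step of index `n` is killed by `n`. -/
theorem nsmul_mem_of_relIndex_eq {X : Type*} [AddCommGroup X] {A B : AddSubgroup X} {n : ℕ}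
    (h : A.relIndex B = n) (x : X) (hx : x ∈ B) : n • x ∈ A := by
  have h1 : (A.addSubgroupOf B).index • (⟨x, hx⟩ : ↥B) ∈ A.addSubgroupOf B :=
    AddSubgroup.nsmul_index_mem _ _
  rw [AddSubgroup.mem_addSubgroupOf] at h1
  have h2 : (A.addSubgroupOf B).index = n := h
  rw [h2] at h1
  exact h1

end Bridge

end Fermat.Agent.MZ.ORDL.OrdPeuInst6
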