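/-
Programme MZ, area ORDL, file DualFlat3 (helper3): **the Cartier dual of a flat module is flat**.

`R` a PID, `Ω` an algebraically closed field of characteristic `0` containing `R`, `Γ` a group acting
on `Ω` with `Ω^Γ ⊆ Frac R` (`hF : FixedInFrac R Ω Γ`) — e.g. `(ratLocalizedAt ℓ, ℚ̄, G_ℚ)` or
`(ℤ_ℓ, ℚ̄_ℓ, G_{ℚ_ℓ})`.  `M` a `Γ`-module with a finite flat model (`HasFlatModel R Ω Γ M act`).

* **`HasFlatModel.dual_of_pairing`** : any `Γ`-module `M'` in perfect equivariant duality with `M`
  with values in `Ωˣ` (`pair : M' → M → Ωˣ` biadditive, separating on the left, every character of `M`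
  is a `pair f ·`, and `pair (act' σ f) (act σ x) = σ (pair f x)`) has a finite flat model
  (the Cartier dual `H^D` of a good model `H` of `M`, `CartierPerfect7.dualPointsEquiv`).
* `HasFlatModel.dualHom` : the concrete dual `M →+ Additive Ωˣ`.
-/
import Mathlib
import Fermat.Agent.TW.FLAT.FlatIntrinsic7

set_option autoImplicit false
set_option linter.style.haveILetI false

open WithConv TensorProduct

namespace Fermat.Agent.MZ.ORDL.DualFlat3

open Fermat.Agent.TW.FLAT.Points6 Fermat.Agent.TW.FLAT.CartierDual7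
  Fermat.Agent.TW.FLAT.CartierPairing7 Fermat.Agent.TW.FLAT.CartierPerfect7
  Fermat.Agent.TW.FLAT.Descent6 Fermat.Agent.TW.FLAT.FlatIntrinsic7
open scoped Fermat.Agent.TW.FLAT.CartierDual7

noncomputable section

variable {R Ω Γ M : Type} [CommRing R] [IsDomain R] [IsPrincipalIdealRing R] [Field Ω]
  [IsAlgClosed Ω] [CharZero Ω] [Algebra R Ω] [FaithfulSMul R Ω] [Group Γ] [MulSemiringAction Γ Ω]
  [SMulCommClass Γ R Ω] [AddCommGroup M] {act : Γ → M → M}

/-- **The Cartier dual of a flat module is flat** (perfect pairing form). -/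
theorem _root_.Fermat.Agent.TW.FLAT.Points6.HasFlatModel.dual_of_pairing
    (hF : FixedInFrac R Ω Γ) (h : HasFlatModel R Ω Γ M act)
    {M' : Type} [AddCommGroup M'] (pair : M' → M → Ωˣ)
    (hadd_left : ∀ (f g : M') (x : M), pair (f + g) x = pair f x * pair g x)
    (hadd_right : ∀ (f : M') (x y : M), pair f (x + y) = pair f x * pair f y)
    (hinj : ∀ f g : M', (∀ x : M, pair f x = pair g x) → f = g)
    (hsurj : ∀ χ : Multiplicative M →* Ωˣ, ∃ f : M', ∀ x : M, pair f x = χ (Multiplicative.ofAdd x))
    {act' : Γ → M' → M'}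
    (hact : ∀ (σ : Γ) (f : M') (x : M),
      ((pair (act' σ f) (act σ x) : Ωˣ) : Ω) = σ • ((pair f x : Ωˣ) : Ω)) :
    HasFlatModel R Ω Γ M' act' := by
  obtain ⟨H, i1, i2, hco, hfin, hfree, hev, hevD, e, hmul, heq⟩ := exists_good hF h
  have he1 : e 1 = 0 := by
    have := hmul 1 1
    rw [mul_one] at this
    exact left_eq_add.mp this
  haveI : Finite (WithConv (H →ₐ[R] Ω)) := pts_finite
  have hpair0 : ∀ f : M', pair f 0 = 1 := by
    intro f
    have h0 := hadd_right f 0 0
    rw [add_zero] at h0
    exact mul_left_cancel (a := pair f 0) (by rw [mul_one]; exact h0.symm)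
  -- the character of `M` defined by a point of the dual
  let chi : WithConv (CDual R H →ₐ[R] Ω) → (Multiplicative M →* Ωˣ) := fun φ =>
    { toFun := fun m => dualPointsEquiv hev φ (e.symm (Multiplicative.toAdd m))
      map_one' := by
        have : e.symm (Multiplicative.toAdd (1 : Multiplicative M)) = 1 := by
          apply e.injective
          rw [e.apply_symm_apply, he1]
          rfl
        rw [this, map_one]
      map_mul' := fun a b => by
        have : e.symm (Multiplicative.toAdd (a * b)) =
            e.symm (Multiplicative.toAdd a) * e.symm (Multiplicative.toAdd b) := by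
          apply e.injective
          rw [e.apply_symm_apply, hmul, e.apply_symm_apply, e.apply_symm_apply]
          rfl
        rw [this, map_mul] }
  have hchi : ∀ φ (x : WithConv (H →ₐ[R] Ω)),
      ((chi φ (Multiplicative.ofAdd (e x)) : Ωˣ) : Ω) = cartierPairing x φ := by
    intro φ x
    change ((dualPointsEquiv hev φ (e.symm (e x)) : Ωˣ) : Ω) = _
    rw [e.symm_apply_apply, dualPointsEquiv_apply]
  choose F hFdef using fun φ => hsurj (chi φ)
  have hFpair : ∀ φ (x : WithConv (H →ₐ[R] Ω)),
      ((pair (F φ) (e x) : Ωˣ) : Ω) = cartierPairing x φ := by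
    intro φ x
    rw [hFdef φ (e x), hchi]
  have hFinj : Function.Injective F := by
    intro φ ψ hφψ
    refine cartierPairing_right_injective hev.1 φ ψ fun x => ?_
    rw [← hFpair φ x, ← hFpair ψ x, hφψ]
  have hFsurj : Function.Surjective F := by
    intro f
    -- the character `x ↦ pair f (e x)` of `G(Ω)`
    let χ : WithConv (H →ₐ[R] Ω) →* Ωˣ :=
      { toFun := fun x => pair f (e x)
        map_one' := by rw [he1, hpair0]
        map_mul' := fun a b => by rw [hmul, hadd_right] }
    obtain ⟨φ, hφ⟩ := (dualPointsEquiv hev).surjective χ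
    refine ⟨φ, hinj _ _ fun x => ?_⟩
    obtain ⟨y, rfl⟩ := e.surjective x
    apply Units.ext
    rw [hFpair, ← dualPointsEquiv_apply hev, hφ]
    rfl
  refine ⟨CDual R H, inferInstance, inferInstance, inferInstance, inferInstance, inferInstance,
    Equiv.ofBijective F ⟨hFinj, hFsurj⟩, ?_, ?_⟩
  · intro φ ψ
    change F (φ * ψ) = F φ + F ψ
    refine hinj _ _ fun x => ?_
    obtain ⟨y, rfl⟩ := e.surjective x
    apply Units.ext
    rw [hadd_left, Units.val_mul, hFpair, hFpair, hFpair, cartierPairing_mul_right]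
  · intro σ φ
    change F (σ • φ) = act' σ (F φ)
    refine hinj _ _ fun x => ?_
    obtain ⟨y, rfl⟩ := e.surjective x
    apply Units.ext
    have h1 : e y = act σ (e (σ⁻¹ • y)) := by rw [← heq, smul_inv_smul]
    rw [hFpair]
    conv_rhs => rw [h1, hact, hFpair]
    have h2 := cartierPairing_smul σ (σ⁻¹ • y) φ
    rw [smul_inv_smul] at h2
    exact h2

/-- **The Cartier dual of a flat module is flat**, for the concrete dual `M →+ Additive Ωˣ` with any
action `act'` compatible with the evaluation pairing. -/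
theorem _root_.Fermat.Agent.TW.FLAT.Points6.HasFlatModel.dualHom
    (hF : FixedInFrac R Ω Γ) (h : HasFlatModel R Ω Γ M act)
    {act' : Γ → (M →+ Additive Ωˣ) → (M →+ Additive Ωˣ)}
    (hact : ∀ (σ : Γ) (f : M →+ Additive Ωˣ) (x : M),
      ((Additive.toMul (act' σ f (act σ x)) : Ωˣ) : Ω) = σ • ((Additive.toMul (f x) : Ωˣ) : Ω)) :
    HasFlatModel R Ω Γ (M →+ Additive Ωˣ) act' := by
  refine h.dual_of_pairing hF (fun f x => Additive.toMul (f x)) (fun f g x => rfl)
    (fun f x y => by rw [map_add]; rfl) (fun f g hfg => ?_) (fun χ => ?_) hact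
  · ext x
    exact congrArg Units.val (hfg x)
  · exact ⟨MonoidHom.toAdditiveRight χ, fun x => rfl⟩

end

end Fermat.Agent.MZ.ORDL.DualFlat3
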