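/-
Programme MZ, area ORDL, file DualOrd3 (helper3): **the ORDL deliverables for the Cartier dual**
(decision D5 of T/iface/MZ-MASTER-v2: the Selmer dévissage is run for `W = G ⊕ G^*`).

Local, module level.  `M` a `Gq p`-module with a finite flat model over `ℤ_p`, killed by `n`;
`B0 ≤ M` a subgroup on which `Iq p` acts through the cyclotomic exponent (`B0 ≤ cycSub h n`) and such
that `Iq p` acts trivially on `M / B0` (`het`) — the output of ORDL for `G_r`, `B0 = cycPart`.
`M'` a `Gq p`-module in perfect equivariant duality with `M` (`pair : M' → M → Ωˣ`, hypotheses of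
`DualFlat3.HasFlatModel.dual_of_pairing`), e.g. `M' = (M →+ Additive Ωˣ)` with `(σ f)(x) = σ (f (σ⁻¹ x))`.

* `annih pair B0 : AddSubgroup M'` — the annihilator `(M/B0)^*` of `B0`;
* `nsmul_eq_zero_dual` : `M'` is killed by `n`;
* **`dual_et`** : `act' τ f - f ∈ annih pair B0` for `τ ∈ Iq p` (inertia acts trivially on `M'/(M/B0)^* = B0^*`);
* **`dual_cyc`** : `Iq p` acts on `annih pair B0` through the cyclotomic exponent;
* **`dual_ext_unit`** : for every character `j` of `annih pair B0` and every `f : M'`,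
  `∃ u, ‖u‖ = 1 ∧ ∀ τ ∈ Iq p, τ u = j (act' τ f - f) * u` (`PeuLocal7.exists_unit_kummer` for the dual
  flat model).
These are the three fields `fin`/`et`/`ext_unit` of `MZ/LOCL/OrdPeu4.OrdPeu` for `(M', annih pair B0)`:
* **`ordPeu_dual`** : for `B B' : Rep ℤ (Gq p)` in perfect equivariant duality, `B` flat killed by `n`,
  `B0 ≤ B` cyclotomic on inertia with `B/B0` unramified: `OrdPeu p B' (annih pair B0)`.
-/
import Mathlib
import Fermat.Agent.TW.FLAT.PeuLocal7
import Fermat.Agent.TW.FLAT.Ordinary7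
import Fermat.Agent.MZ.ORDL.DualFlat3
import Fermat.Agent.MZ.LOCL.OrdPeu4

set_option autoImplicit false
set_option linter.style.haveILetI false
set_option linter.unusedSectionVars false

namespace Fermat.Agent.MZ.ORDL.DualOrd3

open Fermat.Agent.TW.FLAT.Points6 Fermat.Agent.TW.FLAT.FlatIntrinsic7
  Fermat.Agent.TW.FLAT.LocalPoints6 Fermat.Agent.TW.LOC.Defs2 Fermat.Agent.TW.FLAT.Ordinary7
  Fermat.Agent.TW.FLAT.PeuLocal7

noncomputable section

variable {p : ℕ} [Fact p.Prime] {M M' : Type} [AddCommGroup M] [AddCommGroup M']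

/-- The annihilator of `B0` in the dual. -/
def annih (pair : M' → M → (PadicAlgCl p)ˣ)
    (hadd_left : ∀ (f g : M') (x : M), pair (f + g) x = pair f x * pair g x)
    (B0 : AddSubgroup M) : AddSubgroup M' where
  carrier := {f | ∀ x ∈ B0, pair f x = 1}
  zero_mem' := fun x _ => by
    have h0 := hadd_left 0 0 x
    rw [add_zero] at h0
    exact mul_left_cancel (a := pair 0 x) (by rw [mul_one]; exact h0.symm)
  add_mem' := fun {a b} ha hb x hx => by rw [hadd_left, ha x hx, hb x hx, one_mul]
  neg_mem' := fun {a} ha x hx => by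
    have h0 : pair (0 : M') x = 1 := by
      have h0 := hadd_left 0 0 x
      rw [add_zero] at h0
      exact mul_left_cancel (a := pair 0 x) (by rw [mul_one]; exact h0.symm)
    have h1 := hadd_left (-a) a x
    rw [neg_add_cancel, h0, ha x hx, mul_one] at h1
    exact h1.symm

variable {act : Gq p → M → M} {act' : Gq p → M' → M'}
  (h : HasFlatModel ℤ_[p] (PadicAlgCl p) (Gq p) M act)
  (pair : M' → M → (PadicAlgCl p)ˣ)
  (hadd_left : ∀ (f g : M') (x : M), pair (f + g) x = pair f x * pair g x)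
  (hadd_right : ∀ (f : M') (x y : M), pair f (x + y) = pair f x * pair f y)
  (hinj : ∀ f g : M', (∀ x : M, pair f x = pair g x) → f = g)
  (hact : ∀ (σ : Gq p) (f : M') (x : M),
    ((pair (act' σ f) (act σ x) : (PadicAlgCl p)ˣ) : PadicAlgCl p) =
      σ • ((pair f x : (PadicAlgCl p)ˣ) : PadicAlgCl p))
  (n : ℕ) [NeZero n] (hn : ∀ m : M, n • m = 0)
  (B0 : AddSubgroup M)

section Basic

include hadd_left in
theorem pair_zero_left (x : M) : pair 0 x = 1 := by
  have h0 := hadd_left 0 0 x
  rw [add_zero] at h0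
  exact mul_left_cancel (a := pair 0 x) (by rw [mul_one]; exact h0.symm)

include hadd_right in
theorem pair_zero_right (f : M') : pair f 0 = 1 := by
  have h0 := hadd_right f 0 0
  rw [add_zero] at h0
  exact mul_left_cancel (a := pair f 0) (by rw [mul_one]; exact h0.symm)

include hadd_left in
theorem pair_neg_left (f : M') (x : M) : pair (-f) x = (pair f x)⁻¹ := by
  have h1 := hadd_left (-f) f x
  rw [neg_add_cancel, pair_zero_left pair hadd_left] at h1
  exact eq_inv_of_mul_eq_one_left h1.symm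

include hadd_left in
theorem pair_sub_left (f g : M') (x : M) : pair (f - g) x = pair f x * (pair g x)⁻¹ := by
  rw [sub_eq_add_neg, hadd_left, pair_neg_left pair hadd_left]

include hadd_left in
theorem pair_nsmul_left (c : ℕ) (f : M') (x : M) : pair (c • f) x = pair f x ^ c := by
  induction c with
  | zero => rw [zero_nsmul, pow_zero, pair_zero_left pair hadd_left]
  | succ c ih => rw [succ_nsmul, hadd_left, ih, pow_succ]

include hadd_right in
theorem pair_nsmul_right (c : ℕ) (f : M') (x : M) : pair f (c • x) = pair f x ^ c := by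
  induction c with
  | zero => rw [zero_nsmul, pow_zero, pair_zero_right pair hadd_right]
  | succ c ih => rw [succ_nsmul, hadd_right, ih, pow_succ]

include hadd_right hn in
/-- The values of the pairing are `n`-th roots of unity. -/
theorem pair_pow_eq_one (f : M') (x : M) :
    ((pair f x : (PadicAlgCl p)ˣ) : PadicAlgCl p) ^ n = 1 := by
  rw [← Units.val_pow_eq_pow_val, ← pair_nsmul_right pair hadd_right, hn,
    pair_zero_right pair hadd_right, Units.val_one]

include hadd_left hadd_right hinj hn in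
/-- The dual is killed by `n`. -/
theorem nsmul_eq_zero_dual (f : M') : n • f = 0 := by
  refine hinj _ _ fun x => ?_
  rw [pair_nsmul_left pair hadd_left, ← pair_nsmul_right pair hadd_right, hn,
    pair_zero_right pair hadd_right, pair_zero_left pair hadd_left]

end Basic

section Main

variable (hB0cyc : B0 ≤ cycSub h n) (het : ∀ τ ∈ Iq p, ∀ b : M, act τ b - b ∈ B0)

include h hadd_left hadd_right hact hn hB0cyc in
/-- **`et` for the dual**: inertia acts trivially on `M' / (M/B0)^*`. -/
theorem dual_et (τ : Gq p) (hτ : τ ∈ Iq p) (f : M') :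
    act' τ f - f ∈ annih pair hadd_left B0 := by
  intro x hx
  rw [pair_sub_left pair hadd_left]
  suffices hs : pair (act' τ f) x = pair f x by rw [hs, mul_inv_cancel]
  have hτ' : τ⁻¹ ∈ Iq p := inv_mem hτ
  obtain ⟨c', hc'⟩ := exists_isCycExp n τ⁻¹
  have h1 : act τ⁻¹ x = c' • x := hB0cyc hx τ⁻¹ hτ' c' hc'
  have h2 : x = act τ (c' • x) := by rw [← h1, act_act_inv h]
  apply Units.ext
  conv_lhs => rw [h2, hact, pair_nsmul_right pair hadd_right, Units.val_pow_eq_pow_val]
  set ζ : PadicAlgCl p := ((pair f x : (PadicAlgCl p)ˣ) : PadicAlgCl p) with hζ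
  have hζn : ζ ^ n = 1 := pair_pow_eq_one pair hadd_right n hn f x
  have h3 : (τ ζ) ^ n = 1 := by rw [← map_pow, hζn, map_one]
  have h4 := hc' (τ ζ) h3
  change τ • ζ ^ c' = ζ
  rw [AlgEquiv.smul_def, map_pow, ← h4]
  change τ.symm (τ ζ) = ζ
  exact τ.symm_apply_apply ζ

include h hadd_left hadd_right hinj hact hn het in
/-- **Inertia acts on `(M/B0)^*` through the cyclotomic exponent.** -/
theorem dual_cyc (τ : Gq p) (hτ : τ ∈ Iq p) (c : ℕ) (hc : IsCycExp n τ c) (f : M')
    (hf : f ∈ annih pair hadd_left B0) : act' τ f = c • f := by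
  refine hinj _ _ fun x => ?_
  have hτ' : τ⁻¹ ∈ Iq p := inv_mem hτ
  set y := act τ⁻¹ x with hy
  have h1 : x = act τ y := by rw [hy, act_act_inv h]
  have h2 : pair f y = pair f x := by
    have h3 : y = x + (y - x) := by abel
    rw [h3, hadd_right, hf _ (het τ⁻¹ hτ' x), mul_one]
  apply Units.ext
  conv_lhs => rw [h1, hact, h2]
  rw [pair_nsmul_left pair hadd_left, Units.val_pow_eq_pow_val, AlgEquiv.smul_def]
  exact hc _ (pair_pow_eq_one pair hadd_right n hn f x)

variable (hsurj : ∀ χ : Multiplicative M →* (PadicAlgCl p)ˣ,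
    ∃ f : M', ∀ x : M, pair f x = χ (Multiplicative.ofAdd x))

include h hadd_left hadd_right hinj hsurj hact hn hB0cyc het in
/-- **`ext_unit` for the dual**: flat ⇒ peu ramifié for the Cartier dual. -/
theorem dual_ext_unit (j : M' → PadicAlgCl p) (hj1 : j 0 = 1)
    (hjmul : ∀ a ∈ annih pair hadd_left B0, ∀ b ∈ annih pair hadd_left B0, j (a + b) = j a * j b)
    (f : M') :
    ∃ u : PadicAlgCl p, ‖u‖ = 1 ∧ ∀ τ ∈ Iq p, τ u = j (act' τ f - f) * u := by
  have h' : HasFlatModel ℤ_[p] (PadicAlgCl p) (Gq p) M' act' :=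
    h.dual_of_pairing (fixedInFrac_padicInt p) pair hadd_left hadd_right hinj hsurj hact
  have hpow : ∀ t ∈ annih pair hadd_left B0, ∀ k : ℕ, j (k • t) = j t ^ k := by
    intro t ht k
    induction k with
    | zero => rw [zero_nsmul, pow_zero, hj1]
    | succ k ih =>
      rw [succ_nsmul, hjmul _ (AddSubgroup.nsmul_mem _ ht k) _ ht, ih, pow_succ]
  refine exists_unit_kummer h' (annih pair hadd_left B0) ?_ j hj1 hjmul ?_ f
    (fun σ hσ => dual_et h pair hadd_left hadd_right hact n hn B0 hB0cyc σ hσ f)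
  · intro σ hσ t ht
    obtain ⟨c, hc⟩ := exists_isCycExp n σ
    rw [dual_cyc h pair hadd_left hadd_right hinj hact n hn B0 het σ hσ c hc t ht]
    exact AddSubgroup.nsmul_mem _ ht c
  · intro σ hσ t ht
    obtain ⟨c, hc⟩ := exists_isCycExp n σ
    rw [dual_cyc h pair hadd_left hadd_right hinj hact n hn B0 het σ hσ c hc t ht, hpow t ht c]
    have hroot : j t ^ n = 1 := by
      rw [← hpow t ht n, nsmul_eq_zero_dual pair hadd_left hadd_right hinj n hn, hj1]
    exact (hc (j t) hroot).symm

end Main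

section RepForm

open Fermat.Agent.MZ.LOCL.OrdPeu4

/-- **`OrdPeu` for the Cartier dual.**  `B`, `B'` local representations in perfect equivariant duality
(`pair`), `B` with a finite flat model over `ℤ_p` and killed by `n`, `B0 ≤ B` a subgroup on which
inertia acts through the cyclotomic exponent and with `B/B0` unramified.  Then `(B', (B/B0)^*)`
satisfies `OrdPeu`. -/
theorem ordPeu_dual {B B' : Rep.{0} ℤ (Gq p)}
    (h : HasFlatModel ℤ_[p] (PadicAlgCl p) (Gq p) B (fun τ b => B.ρ τ b))
    (pair : B' → B → (PadicAlgCl p)ˣ)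
    (hadd_left : ∀ (f g : B') (x : B), pair (f + g) x = pair f x * pair g x)
    (hadd_right : ∀ (f : B') (x y : B), pair f (x + y) = pair f x * pair f y)
    (hinj : ∀ f g : B', (∀ x : B, pair f x = pair g x) → f = g)
    (hsurj : ∀ χ : Multiplicative B →* (PadicAlgCl p)ˣ,
      ∃ f : B', ∀ x : B, pair f x = χ (Multiplicative.ofAdd x))
    (hact : ∀ (σ : Gq p) (f : B') (x : B),
      ((pair (B'.ρ σ f) (B.ρ σ x) : (PadicAlgCl p)ˣ) : PadicAlgCl p) =
        σ • ((pair f x : (PadicAlgCl p)ˣ) : PadicAlgCl p))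
    (n : ℕ) [NeZero n] (hn : ∀ b : B, n • b = 0) (B0 : AddSubgroup B)
    (hB0cyc : ∀ x ∈ B0, ∀ τ ∈ Iq p, ∀ c : ℕ, IsCycExp n τ c → B.ρ τ x = c • x)
    (het : ∀ τ ∈ Iq p, ∀ b : B, B.ρ τ b - b ∈ B0) :
    OrdPeu p B' (annih pair hadd_left B0) := by
  have hcyc : B0 ≤ cycSub h n := fun x hx τ hτ c hc => hB0cyc x hx τ hτ c hc
  have h' : HasFlatModel ℤ_[p] (PadicAlgCl p) (Gq p) B' (fun τ f => B'.ρ τ f) :=
    h.dual_of_pairing (fixedInFrac_padicInt p) pair hadd_left hadd_right hinj hsurj hact
  haveI : Finite B' := finite_of_model h'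
  refine ⟨inferInstance, fun τ hτ f => ?_, fun j hj f => ?_⟩
  · exact dual_et (act' := fun τ f => B'.ρ τ f) h pair hadd_left hadd_right hact n hn B0 hcyc τ hτ f
  · exact dual_ext_unit (act' := fun τ f => B'.ρ τ f) h pair hadd_left hadd_right hinj hact n hn B0
      hcyc het hsurj j hj.1 hj.2 f

end RepForm

end

end Fermat.Agent.MZ.ORDL.DualOrd3
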